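import Fermat.Agent.A3.H799.Red195

/-!
# A3 / LOCAL — consequences of `DiscData`  (helper799)

Dictionary between the disc algebra of a `DiscData` and orders of functions at the points of the
residue disc: `t - a` has a simple zero at `pt a` and no other zero in the disc; `pt` is
injective; `ev a f = 0 ↔ ord_{pt a} f ≥ 1`; division by `t - a`; values of `polyDiv`.
-/

set_option autoImplicit false

noncomputable section

open AlgebraicCurve Fermat.Agent.Lib.RR

namespace Fermat.Agent.A3.H799

variable {K F k Fk : Type*} [Field K] [Field F] [Algebra K F] [Field k] [Field Fk] [Algebra k Fk]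

section Finsupp

/-- A point of the fibre contributes at most the total, if all contributions are `≥ 0`. -/
theorem le_mapDomain_apply {α β : Type*} (r : α → β) (D : α →₀ ℤ) (b : β)
    (hnn : ∀ a, r a = b → 0 ≤ D a) (a₀ : α) (h₀ : r a₀ = b) :
    D a₀ ≤ Finsupp.mapDomain r D b := by
  classical
  rw [Finsupp.mapDomain, Finsupp.sum_apply]
  simp only [Finsupp.sum, Finsupp.single_apply]
  by_cases hmem : a₀ ∈ D.support
  · have h1 : (if r a₀ = b then D a₀ else 0) ≤
        ∑ a ∈ D.support, if r a = b then D a else 0 := by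
      refine Finset.single_le_sum (f := fun a => if r a = b then D a else 0) ?_ hmem
      intro a _
      show 0 ≤ if r a = b then D a else 0
      split_ifs with h
      · exact hnn a h
      · exact le_rfl
    rwa [if_pos h₀] at h1
  · have h0 : D a₀ = 0 := Finsupp.notMem_support_iff.mp hmem
    rw [h0]
    refine Finset.sum_nonneg fun a _ => ?_
    split_ifs with h
    · exact hnn a h
    · exact le_rfl

/-- Two distinct points of the fibre contribute at most the total. -/
theorem add_le_mapDomain_apply {α β : Type*} (r : α → β) (D : α →₀ ℤ) (b : β)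
    (hnn : ∀ a, r a = b → 0 ≤ D a) (a₀ a₁ : α) (h₀ : r a₀ = b) (h₁ : r a₁ = b)
    (hne : a₀ ≠ a₁) : D a₀ + D a₁ ≤ Finsupp.mapDomain r D b := by
  classical
  -- remove the point `a₀`
  set D' : α →₀ ℤ := D - Finsupp.single a₀ (D a₀) with hD'
  have hD : D = D' + Finsupp.single a₀ (D a₀) := by rw [hD']; abel
  have hnn' : ∀ a, r a = b → 0 ≤ D' a := by
    intro a ha
    rw [hD', Finsupp.sub_apply, Finsupp.single_apply]
    split_ifs with h
    · subst h; simp
    · simpa using hnn a ha
  have h1 := le_mapDomain_apply r D' b hnn' a₁ h₁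
  have h2 : D' a₁ = D a₁ := by
    rw [hD', Finsupp.sub_apply, Finsupp.single_apply, if_neg hne, sub_zero]
  have h3 : Finsupp.mapDomain r D b = Finsupp.mapDomain r D' b + D a₀ := by
    conv_lhs => rw [hD]
    rw [Finsupp.mapDomain_add, Finsupp.add_apply, Finsupp.mapDomain_single,
      Finsupp.single_apply, if_pos h₀]
  rw [h3, ← h2]
  linarith

end Finsupp

namespace DiscData

variable {𝓡 : GoodRed K F k Fk} {Q : Place k Fk} (d : DiscData 𝓡 Q)

/-- The parameter as an element of `F`. -/
def tF : F := ((d.D.t : d.ring) : F)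

/-- Reduction on the disc ring. -/
def redHom : d.ring →+* Fk :=
  𝓡.red.comp
    { toFun := fun f => (⟨(f : F), d.ring_le _ f.2⟩ : 𝓡.O)
      map_one' := rfl
      map_mul' := fun _ _ => rfl
      map_zero' := rfl
      map_add' := fun _ _ => rfl }

theorem redHom_apply (f : d.ring) : d.redHom f = 𝓡.red ⟨(f : F), d.ring_le _ f.2⟩ := rfl

theorem coe_algebraMap (a : 𝓡.V) : ((algebraMap 𝓡.V d.ring a : d.ring) : F) =
    algebraMap K F (a : K) := rfl

theorem redHom_algebraMap (a : 𝓡.V) :
    d.redHom (algebraMap 𝓡.V d.ring a) = algebraMap k Fk (𝓡.res a) := by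
  rw [redHom_apply]
  exact 𝓡.red_algebraMap a _

theorem redHom_algebraMap_of_mem (a : IsLocalRing.maximalIdeal 𝓡.V) :
    d.redHom (algebraMap 𝓡.V d.ring (a : 𝓡.V)) = 0 := by
  rw [redHom_algebraMap]
  have h : 𝓡.res (a : 𝓡.V) = 0 := by
    rw [𝓡.res_eq_zero, ValuationSubring.mem_nonunits_iff_exists_mem_maximalIdeal]
    exact ⟨(a : 𝓡.V).2, a.2⟩
  rw [h, map_zero]

theorem ord_redHom_t : Q.ord (d.redHom d.D.t) = 1 := d.ord_t

theorem redHom_t_ne_zero : d.redHom d.D.t ≠ 0 := by
  intro h
  have := d.ord_redHom_t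
  rw [h, Place.ord_zero] at this
  exact zero_ne_one this

/-- `t - a` as an element of the disc ring. -/
def tSub (a : IsLocalRing.maximalIdeal 𝓡.V) : d.ring :=
  d.D.t - algebraMap 𝓡.V d.ring (a : 𝓡.V)

theorem coe_tSub (a : IsLocalRing.maximalIdeal 𝓡.V) :
    ((d.tSub a : d.ring) : F) = d.tF - algebraMap K F (((a : 𝓡.V) : K)) := rfl

theorem redHom_tSub (a : IsLocalRing.maximalIdeal 𝓡.V) : d.redHom (d.tSub a) = d.redHom d.D.t := by
  rw [tSub, map_sub, redHom_algebraMap_of_mem, sub_zero]

theorem tSub_ne_zero (a : IsLocalRing.maximalIdeal 𝓡.V) : ((d.tSub a : d.ring) : F) ≠ 0 := by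
  intro h
  have h1 : d.tSub a = 0 := Subtype.ext h
  have := d.redHom_tSub a
  rw [h1, map_zero] at this
  exact d.redHom_t_ne_zero this.symm

theorem ev_tSub (a : IsLocalRing.maximalIdeal 𝓡.V) : d.D.ev a (d.tSub a) = 0 := by
  rw [tSub, map_sub, d.D.ev_t, AlgHom.commutes]
  simp

theorem ord_nonneg (f : d.ring) (P : Place K F) (hP : 𝓡.r P = Q) : 0 ≤ P.ord (f : F) :=
  ord_nonneg_of_mem P (d.ring_reg _ f.2 P hP)

/-- `t - a` has a simple zero at `pt a`. -/
theorem ord_pt_tSub (a : IsLocalRing.maximalIdeal 𝓡.V) :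
    (d.pt a).ord ((d.tSub a : d.ring) : F) = 1 := by
  haveI := 𝓡.ff1
  have hne := d.tSub_ne_zero a
  -- lower bound from `ev_spec`
  have h1 : 1 ≤ (d.pt a).ord ((d.tSub a : d.ring) : F) := by
    have := d.ev_spec a (d.tSub a)
    rw [d.ev_tSub a] at this
    simp only [ZeroMemClass.coe_zero, map_zero, sub_zero] at this
    rcases this with h | h
    · exact absurd h hne
    · exact h
  -- upper bound from conservation
  have h2 := 𝓡.div_red ⟨((d.tSub a : d.ring) : F), d.ring_le _ (d.tSub a).2⟩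
    (by
      have := d.redHom_tSub a
      rw [redHom_apply] at this
      rw [this]
      exact d.redHom_t_ne_zero)
    (divOf _ hne) (fun P => divOf_apply _ hne P) Q
  have h3 : 𝓡.red ⟨((d.tSub a : d.ring) : F), d.ring_le _ (d.tSub a).2⟩ = d.redHom d.D.t :=
    d.redHom_tSub a
  rw [h3, d.ord_redHom_t] at h2
  have h4 := le_mapDomain_apply 𝓡.r (divOf ((d.tSub a : d.ring) : F) hne) Q
    (fun P hP => by rw [divOf_apply]; exact d.ord_nonneg _ P hP) (d.pt a) (d.r_pt a)
  rw [h2, divOf_apply] at h4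
  exact le_antisymm h4 h1

/-- `t - a` does not vanish at `pt b` for `b ≠ a`. -/
theorem ord_pt_tSub_of_ne {a b : IsLocalRing.maximalIdeal 𝓡.V} (hab : b ≠ a) :
    (d.pt b).ord ((d.tSub a : d.ring) : F) = 0 := by
  have h1 : ((d.tSub a : d.ring) : F) =
      algebraMap K F ((((b : 𝓡.V) : K)) - (((a : 𝓡.V) : K))) + ((d.tSub b : d.ring) : F) := by
    rw [coe_tSub, coe_tSub, map_sub]; ring
  have hc : algebraMap K F ((((b : 𝓡.V) : K)) - (((a : 𝓡.V) : K))) ≠ 0 := by
    rw [Ne, map_eq_zero_iff _ (algebraMap K F).injective, sub_eq_zero]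
    intro h
    exact hab (Subtype.ext (Subtype.ext h))
  rw [h1, ord_add_eq_of_lt _ hc (d.tSub_ne_zero b), ord_algebraMap]
  rw [ord_algebraMap, d.ord_pt_tSub b]
  exact zero_lt_one

theorem pt_injective : Function.Injective d.pt := by
  intro a b hab
  by_contra hne
  have h1 := d.ord_pt_tSub a
  rw [hab, d.ord_pt_tSub_of_ne (a := a) (b := b) (Ne.symm hne)] at h1
  exact zero_ne_one h1

open Classical in
/-- The order of `t - a` at the points of the disc. -/
theorem ord_pt_tSub_eq (a b : IsLocalRing.maximalIdeal 𝓡.V) :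
    (d.pt b).ord ((d.tSub a : d.ring) : F) = if b = a then 1 else 0 := by
  split_ifs with h
  · subst h; exact d.ord_pt_tSub b
  · exact d.ord_pt_tSub_of_ne h

/-- `ev a f = 0` iff `f` vanishes at `pt a`. -/
theorem ev_eq_zero_iff (a : IsLocalRing.maximalIdeal 𝓡.V) (f : d.ring) (hf : f ≠ 0) :
    d.D.ev a f = 0 ↔ 1 ≤ (d.pt a).ord (f : F) := by
  have hfF : (f : F) ≠ 0 := fun h => hf (Subtype.ext h)
  constructor
  · intro h
    have := d.ev_spec a f
    rw [h] at this
    simp only [ZeroMemClass.coe_zero, map_zero, sub_zero] at this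
    exact this.resolve_left hfF
  · intro h
    by_contra hc
    have hcK : algebraMap K F (((d.D.ev a f : 𝓡.V) : K)) ≠ 0 := by
      rw [Ne, map_eq_zero_iff _ (algebraMap K F).injective]
      intro h0
      exact hc (Subtype.ext h0)
    rcases d.ev_spec a f with h1 | h1
    · rw [h1, ord_algebraMap] at h
      exact absurd h (by norm_num)
    · -- the constant is `f - (f - c)`
      have h2 : algebraMap K F (((d.D.ev a f : 𝓡.V) : K)) =
          (f : F) + -((f : F) - algebraMap K F (((d.D.ev a f : 𝓡.V) : K))) := by ring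
      have h3 := ord_add_of_le (d.pt a) (n := 1) (Or.inr h)
        (Or.inr (by rw [ord_neg]; exact h1) :
          -((f : F) - algebraMap K F (((d.D.ev a f : 𝓡.V) : K))) = 0 ∨
          1 ≤ (d.pt a).ord (-((f : F) - algebraMap K F (((d.D.ev a f : 𝓡.V) : K)))))
      rw [← h2] at h3
      rcases h3 with h3 | h3
      · exact hcK h3
      · rw [ord_algebraMap] at h3
        exact absurd h3 (by norm_num)

/-- Division by `t - a` in the disc ring. -/
theorem exists_eq_mul_of_ev_eq_zero (a : IsLocalRing.maximalIdeal 𝓡.V) (f : d.ring)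
    (h : d.D.ev a f = 0) : ∃ f' : d.ring, f = d.tSub a * f' := by
  obtain ⟨f', hf'⟩ := d.D.taylor a f
  refine ⟨f', ?_⟩
  rw [hf', h, map_zero, zero_add]
  rfl

end DiscData

section PolyDiv

variable {𝓡 : GoodRed K F k Fk} {ι : Type*} [Fintype ι] {Qs : ι → Place k Fk}
  (d : ∀ i, DiscData 𝓡 (Qs i))

open Classical in
/-- Value of `polyDiv` at a point of the `i`-th disc. -/
theorem polyDiv_apply_pt (hQ : Function.Injective Qs)
    (z : ι → IsLocalRing.maximalIdeal 𝓡.V) (i : ι) (a : IsLocalRing.maximalIdeal 𝓡.V) :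
    polyDiv d z ((d i).pt a) = if z i = a then 1 else 0 := by
  classical
  rw [polyDiv, Finsupp.finset_sum_apply]
  simp only [Finsupp.single_apply]
  have h : ∀ l : ι, ((d l).pt (z l) = (d i).pt a) ↔ (l = i ∧ z i = a) := by
    intro l
    constructor
    · intro hl
      have h1 : Qs l = Qs i := by
        rw [← (d l).r_pt (z l), ← (d i).r_pt a, hl]
      have h2 : l = i := hQ h1
      subst h2
      exact ⟨rfl, (d l).pt_injective hl⟩
    · rintro ⟨rfl, h2⟩
      rw [h2]
  simp only [h]
  split_ifs with hz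
  · rw [Finset.sum_eq_single i]
    · simp [hz]
    · intro l _ hl; simp [hl]
    · intro hi; exact absurd (Finset.mem_univ i) hi
  · apply Finset.sum_eq_zero
    intro l _
    simp [hz]

/-- `polyDiv` vanishes outside the discs. -/
theorem polyDiv_apply_of_not_mem (z : ι → IsLocalRing.maximalIdeal 𝓡.V) (P : Place K F)
    (hP : ∀ i, 𝓡.r P ≠ Qs i) : polyDiv d z P = 0 := by
  classical
  rw [polyDiv, Finsupp.finset_sum_apply]
  apply Finset.sum_eq_zero
  intro l _
  rw [Finsupp.single_apply, if_neg]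
  intro h
  exact hP l (by rw [← h, (d l).r_pt])

theorem polyDiv_nonneg (z : ι → IsLocalRing.maximalIdeal 𝓡.V) : 0 ≤ polyDiv d z := by
  classical
  rw [Finsupp.le_def]
  intro P
  rw [polyDiv, Finsupp.finset_sum_apply]
  refine Finset.sum_nonneg fun l _ => ?_
  rw [Finsupp.single_apply]
  split_ifs <;> simp

theorem mapDomain_polyDiv (z : ι → IsLocalRing.maximalIdeal 𝓡.V) :
    Finsupp.mapDomain 𝓡.r (polyDiv d z) = ∑ i, Finsupp.single (Qs i) (1 : ℤ) := by
  rw [polyDiv, Finsupp.mapDomain_finset_sum]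
  refine Finset.sum_congr rfl fun i _ => ?_
  rw [Finsupp.mapDomain_single, (d i).r_pt]

end PolyDiv

end Fermat.Agent.A3.H799
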