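import Fermat.Agent.A3.H799.LocalFinal
import Fermat.Agent.A3.H255.Det

/-!
# A3 / LOCAL — the abstract LOCAL theorem, unconditional  (helper799)

`localStatement : LocalStatement K F k Fk` for every abstract good reduction datum: all leaves
(DISC, DISC-I, NSP, COORD, GEO, DET, KER-I, LIFTI) are on main.
-/

set_option autoImplicit false

open AlgebraicCurve

namespace Fermat.Agent.A3.H799

universe u₁ u₂ u₃ u₄

variable (K : Type u₁) (F : Type u₂) (k : Type u₃) (Fk : Type u₄)
  [Field K] [Field F] [Algebra K F] [Field k] [Field Fk] [Algebra k Fk]

/-- **Block LOCAL, abstract form**: for every abstract good reduction datum `GoodRed K F k Fk`,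
every finite inertia-stable subgroup of `Pic0` has integral, inertia-equivariant, injective
coordinates with algebraic addition. -/
theorem localStatement [IsAlgClosed K] [IsAlgClosed k] [CharZero K] :
    LocalStatement K F k Fk :=
  localStatement_of_det H255.Det.detStatement

end Fermat.Agent.A3.H799
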