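import Mathlib.RingTheory.LocalRing.MaximalIdeal.Basic
import Mathlib.Algebra.Polynomial.RingDivision
import Mathlib.Algebra.Polynomial.AlgebraMap
import Mathlib.Algebra.Polynomial.Div

/-!
# A3 / LOCAL — disc algebras and interpolation  (helper799)

A *disc algebra* over a local ring `A` is the algebraic shadow of "integral functions on an open
residue disc with parameter `t`": an `A`-algebra `𝒪` with an element `t`, an evaluation
`ev a : 𝒪 →ₐ[A] A` at every `a ∈ 𝔪_A` with `ev a t = a`, and the Taylor property
`f = ev a f + (t - a) * f'`.  (In the application `𝒪 = 𝒪_Q = V ∩ ⋂_{r P = Q} 𝒪_P` is the ring of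
functions of Gauss norm `≤ 1` without poles in the residue disc of the point `Q` of the special
fibre; Taylor follows from conservation of zeros.)

Main results (pure algebra):

* `DiscAlg.exists_interp` : Newton/Hermite interpolation, `f = p(t) + ∏ (t - a_i) * h`, `p ∈ A[X]`;
* `DiscAlg.prod_dvd_of_aeval` : if `p(t) ∈ ∏ (t - a_i) 𝒪` then `∏ (X - a_i) ∣ p` in `A[X]`.
-/

set_option autoImplicit false

namespace Fermat.Agent.A3.H799

open Polynomial

/-- Integral functions on a residue disc with parameter `t` (see the module docstring). -/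
structure DiscAlg (A : Type*) [CommRing A] [IsLocalRing A] (𝒪 : Type*) [CommRing 𝒪]
    [Algebra A 𝒪] where
  /-- the parameter -/
  t : 𝒪
  /-- evaluation at the point with parameter value `a` -/
  ev : IsLocalRing.maximalIdeal A → 𝒪 →ₐ[A] A
  ev_t : ∀ a, ev a t = (a : A)
  taylor : ∀ (a : IsLocalRing.maximalIdeal A) (f : 𝒪),
    ∃ f' : 𝒪, f = algebraMap A 𝒪 (ev a f) + (t - algebraMap A 𝒪 (a : A)) * f'
  nzd : ∀ (a : IsLocalRing.maximalIdeal A) (f : 𝒪), (t - algebraMap A 𝒪 (a : A)) * f = 0 → f = 0

namespace DiscAlg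

variable {A : Type*} [CommRing A] [IsLocalRing A] {𝒪 : Type*} [CommRing 𝒪] [Algebra A 𝒪]
variable (D : DiscAlg A 𝒪)

/-- The monic polynomial `∏ (X - a)` attached to a list of points. -/
noncomputable def nodal (l : List (IsLocalRing.maximalIdeal A)) : A[X] :=
  (l.map fun a => X - C (a : A)).prod

@[simp] theorem nodal_nil : nodal ([] : List (IsLocalRing.maximalIdeal A)) = 1 := by
  simp [nodal]

@[simp] theorem nodal_cons (a : IsLocalRing.maximalIdeal A) (l : List (IsLocalRing.maximalIdeal A)) :
    nodal (a :: l) = (X - C (a : A)) * nodal l := by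
  simp [nodal]

theorem nodal_monic (l : List (IsLocalRing.maximalIdeal A)) : (nodal l).Monic := by
  induction l with
  | nil => simp
  | cons a l ih => rw [nodal_cons]; exact (monic_X_sub_C _).mul ih

theorem nodal_append (l l' : List (IsLocalRing.maximalIdeal A)) :
    nodal (l ++ l') = nodal l * nodal l' := by
  simp [nodal]

theorem nodal_append_singleton (l : List (IsLocalRing.maximalIdeal A))
    (a : IsLocalRing.maximalIdeal A) : nodal (l ++ [a]) = nodal l * (X - C (a : A)) := by
  rw [nodal_append, nodal_cons, nodal_nil, mul_one]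

theorem natDegree_nodal (l : List (IsLocalRing.maximalIdeal A)) :
    (nodal l).natDegree = l.length := by
  induction l with
  | nil => simp
  | cons a l ih =>
    rw [nodal_cons, ((monic_X_sub_C _).natDegree_mul (nodal_monic l)), ih, natDegree_X_sub_C]
    simp [add_comm]

@[simp] theorem ev_aeval (a : IsLocalRing.maximalIdeal A) (p : A[X]) :
    D.ev a (aeval D.t p) = p.eval (a : A) := by
  rw [← Polynomial.aeval_algHom_apply, D.ev_t]
  simp [Polynomial.aeval_def]

theorem aeval_nodal_cons (a : IsLocalRing.maximalIdeal A)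
    (l : List (IsLocalRing.maximalIdeal A)) :
    aeval D.t (nodal (a :: l)) = (D.t - algebraMap A 𝒪 (a : A)) * aeval D.t (nodal l) := by
  simp [nodal_cons]

/-- **Interpolation.**  Every disc function is a polynomial in `t` modulo `∏ (t - a_i)`. -/
theorem exists_interp (l : List (IsLocalRing.maximalIdeal A)) (f : 𝒪) :
    ∃ (p : A[X]) (h : 𝒪), f = aeval D.t p + aeval D.t (nodal l) * h := by
  induction l generalizing f with
  | nil => exact ⟨0, f, by simp⟩
  | cons a l ih =>
    obtain ⟨f', hf'⟩ := D.taylor a f
    obtain ⟨p, h, hp⟩ := ih f'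
    refine ⟨C (D.ev a f) + (X - C (a : A)) * p, h, ?_⟩
    rw [D.aeval_nodal_cons]
    conv_lhs => rw [hf', hp]
    simp only [map_add, map_mul, map_sub, aeval_C, aeval_X]
    ring

/-- If `p(t)` is divisible by `∏ (t - a_i)` in the disc algebra, then `p` is divisible by
`∏ (X - a_i)` as a polynomial. -/
theorem nodal_dvd_of_aeval (l : List (IsLocalRing.maximalIdeal A)) (p : A[X]) (h : 𝒪)
    (hp : aeval D.t p = aeval D.t (nodal l) * h) : nodal l ∣ p := by
  induction l generalizing p h with
  | nil => simp
  | cons a l ih =>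
    rw [D.aeval_nodal_cons] at hp
    have hroot : p.eval (a : A) = 0 := by
      have := congrArg (D.ev a) hp
      rw [D.ev_aeval, map_mul, map_mul, map_sub, D.ev_t] at this
      simpa using this
    have hdiv : (X - C (a : A)) * (p /ₘ (X - C (a : A))) = p :=
      mul_divByMonic_eq_iff_isRoot.mpr hroot
    set p₁ := p /ₘ (X - C (a : A)) with hp₁
    have h1 : aeval D.t p = (D.t - algebraMap A 𝒪 (a : A)) * aeval D.t p₁ := by
      conv_lhs => rw [← hdiv]
      simp
    have h2 : (D.t - algebraMap A 𝒪 (a : A)) * (aeval D.t p₁ - aeval D.t (nodal l) * h) = 0 := by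
      rw [mul_sub, ← h1, hp]; ring
    have h3 := D.nzd a _ h2
    have h4 : aeval D.t p₁ = aeval D.t (nodal l) * h := sub_eq_zero.mp h3
    obtain ⟨q, hq⟩ := ih p₁ h h4
    refine ⟨q, ?_⟩
    rw [nodal_cons, ← hdiv, hq]
    ring

/-- Cancellation of `nodal l` in the disc algebra. -/
theorem nodal_cancel (l : List (IsLocalRing.maximalIdeal A)) (f : 𝒪)
    (h : aeval D.t (nodal l) * f = 0) : f = 0 := by
  induction l with
  | nil => simpa using h
  | cons a l ih =>
    rw [D.aeval_nodal_cons, mul_assoc] at h
    exact ih (D.nzd a _ h)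

end DiscAlg

end Fermat.Agent.A3.H799
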