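import Fermat.Agent.A3.H799.Comb

/-!
# A3 / LOCAL — the abstract LOCAL theorem  (helper799)

Combination of `exists_comb` (Cramer over `Λ`) and `root_mem` (Weierstrass + Hensel for algebraic
families).  In the application (addition law of the Jacobian in disc coordinates):

* `ι = Fin g`, `𝒪 i` = integral functions on the residue disc of `Q_i`, `E = Σ P_i`, `Ē = Σ Q_i`
  non-special, `s i = 2`, `ys i = (z_i(x), z_i(y))`, `f₀ i = t_i³ · 1`, `f j i = t_i³ · φ_j` with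
  `1, φ_j` an integral basis of `L(3E)`; the unique `φ = 1 + Σ v_j φ_j` vanishing on `D_x + D_y`
  has divisor `D_x + D_y + D_{-(x+y)} - 3E`, so `c i = z_i(-(x+y))`;
* negation: `s i = 1`, `L(2E)`, `c i = z_i(-x)`.

The hypothesis `hgeo` is the only geometric input and it is POINTWISE (one parameter value `τ`,
honest functions over the valuation ring `A`).
-/

set_option autoImplicit false

namespace Fermat.Agent.A3.H799

open Polynomial

variable {A : Type*} [CommRing A] [IsLocalRing A] {T : Type*} [Finite T]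

/-- **Abstract LOCAL theorem.**  If the linear system "`f₀ + Σ a_j f_j` vanishes on the moving
nodes" is non-degenerate modulo `𝔪` and every solution has exactly one further zero `c i τ` in the
`i`-th disc, then `τ ↦ c i τ` lies in every algebra `Λ` of functions containing the nodes. -/
theorem local_mem {ι : Type*} [Fintype ι] {𝒪 : ι → Type*}
    [∀ i, CommRing (𝒪 i)] [∀ i, Algebra A (𝒪 i)]
    (Λ : Subalgebra A (T → A)) (D : ∀ i, DiscAlg A (𝒪 i)) (s : ι → ℕ)
    (ys : ∀ i, Fin (s i) → radIdeal Λ)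
    (f₀ : ∀ i, 𝒪 i) (f : (Σ i, Fin (s i)) → ∀ i, 𝒪 i)
    (P₀ : ∀ i, A[X]) (H₀ : ∀ i, 𝒪 i)
    (hf₀ : ∀ i, f₀ i = aeval (D i).t (P₀ i) + (D i).t ^ s i * H₀ i)
    (P : (Σ i, Fin (s i)) → ∀ i, A[X]) (H : (Σ i, Fin (s i)) → ∀ i, 𝒪 i)
    (hf : ∀ j i, f j i = aeval (D i).t (P j i) + (D i).t ^ s i * H j i)
    (hdet : ∀ [DecidableEq (Σ i, Fin (s i))],
      IsUnit (Matrix.of fun (c j : Σ i, Fin (s i)) => (P j c.1).coeff (c.2 : ℕ)).det)
    (h₀ : ∀ i (r : Fin (s i)), (P₀ i).coeff (r : ℕ) ∈ IsLocalRing.maximalIdeal A)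
    (c : ι → T → IsLocalRing.maximalIdeal A)
    (hgeo : ∀ (τ : T) (a : (Σ i, Fin (s i)) → IsLocalRing.maximalIdeal A),
      (∀ i, ∃ h : 𝒪 i, f₀ i + ∑ j, ((a j : IsLocalRing.maximalIdeal A) : A) • f j i =
        aeval (D i).t (DiscAlg.nodal ((List.ofFn (ys i)).map (ptAt Λ τ))) * h) →
      ∀ i, ∃ u : 𝒪 i, IsUnit ((D i).ev (c i τ) u) ∧
        f₀ i + ∑ j, ((a j : IsLocalRing.maximalIdeal A) : A) • f j i =
          aeval (D i).t (DiscAlg.nodal ((List.ofFn (ys i)).map (ptAt Λ τ))) *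
            ((D i).t - algebraMap A (𝒪 i) ((c i τ : IsLocalRing.maximalIdeal A) : A)) * u) :
    ∀ i, (fun τ => ((c i τ : IsLocalRing.maximalIdeal A) : A)) ∈ Λ := by
  classical
  obtain ⟨v, hvI, hv⟩ := exists_comb Λ D s ys f₀ f P₀ H₀ hf₀ P H hf hdet h₀
  intro i
  refine root_mem Λ (D i) (κ := Option (Σ i, Fin (s i)))
    (fun o => o.elim (f₀ i) fun j => f j i) (fun o => o.elim 1 v) (List.ofFn (ys i)) (c i) ?_
  intro τ
  obtain ⟨u, hu, hW⟩ := hgeo τ (fun j => ⟨((v j : Λ) : T → A) τ, hvI j τ⟩) (hv τ) i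
  refine ⟨u, hu, ?_⟩
  rw [← hW, Fintype.sum_option]
  simp
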