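import Fermat.Agent.A3.H799.GoodRed
import Fermat.Agent.A3.H799.Local

/-!
# A3 / LOCAL — FROZEN leaf statements  (architect helper799)

`LocalStatement K F k Fk` (GoodRed.lean) is cut into five leaves, each a `Prop` below:

    DISC   `DiscStatement`   residue-disc calculus: a `DiscData` at every point of the special fibre
    NSP    `NspStatement`    special fibre: `g` distinct points with `ℓ(ΣQ_i) = 1`
    COORD  `CoordStatement`  the kernel of reduction is the polydisc `(𝔪_V)^g`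
    ZADD   `ZaddStatement`   addition is algebraic: divisor form, for families on a finite set
    LIFTI  `LiftiStatement`  inertia-invariant lifts of classes of the special fibre

Everything is about HONEST functions/divisors of `F/K`; the only "families" are functions on a
finite set `T` with values in `V`, and `Λ` is any `V`-algebra of such functions
(`Fermat.Agent.A3.H799.local_mem` is the algebra behind ZADD).
-/

set_option autoImplicit false

noncomputable section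

open AlgebraicCurve

namespace Fermat.Agent.A3.H799

variable {K F k Fk : Type*} [Field K] [Field F] [Algebra K F] [Field k] [Field Fk] [Algebra k Fk]

/-- The kernel of reduction `J¹ ⊆ Pic0`: classes of degree-zero divisors whose reduction is
principal. -/
def GoodRed.kerRed (𝓡 : GoodRed K F k Fk) : AddSubgroup (Pic0 K F) where
  carrier := {x | ∃ D : Divisor.degZero (K := K) (F := F), Pic0.mk D = x ∧
    Finsupp.mapDomain 𝓡.r (D : Divisor K F) ∈ Divisor.principal (K := k) (F := Fk)}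
  zero_mem' := ⟨0, rfl, by simp [Finsupp.mapDomain_zero]⟩
  add_mem' := by
    rintro _ _ ⟨D, rfl, hD⟩ ⟨D', rfl, hD'⟩
    refine ⟨D + D', rfl, ?_⟩
    rw [AddSubgroup.coe_add, Finsupp.mapDomain_add]
    exact AddSubgroup.add_mem _ hD hD'
  neg_mem' := by
    rintro _ ⟨D, rfl, hD⟩
    refine ⟨-D, rfl, ?_⟩
    have h : Finsupp.mapDomain 𝓡.r ((-D : Divisor.degZero (K := K) (F := F)) : Divisor K F) =
        -Finsupp.mapDomain 𝓡.r (D : Divisor K F) := by
      rw [AddSubgroup.coe_neg, ← Finsupp.mapDomain.addMonoidHom_apply, map_neg,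
        Finsupp.mapDomain.addMonoidHom_apply]
    rw [h]
    exact AddSubgroup.neg_mem _ hD

/-- **Residue-disc data** at a point `Q` of the special fibre: the ring of integral functions
without poles in the disc `r⁻¹ Q`, as a disc algebra (`Disc.lean`), with the dictionary
"evaluation `ev a` = value at the point `pt a` of the disc". -/
structure DiscData (𝓡 : GoodRed K F k Fk) (Q : Place k Fk) where
  /-- integral functions without poles in the disc -/
  ring : Subalgebra 𝓡.V F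
  ring_le : ∀ f ∈ ring, f ∈ 𝓡.O
  ring_reg : ∀ f ∈ ring, ∀ P : Place K F, 𝓡.r P = Q → f ∈ P.toValuationSubring
  mem_ring : ∀ f ∈ 𝓡.O, (∀ P : Place K F, 𝓡.r P = Q → f ∈ P.toValuationSubring) → f ∈ ring
  /-- the disc algebra structure: parameter `t`, evaluations, Taylor -/
  D : DiscAlg 𝓡.V ring
  /-- the point of the disc with parameter value `a` -/
  pt : IsLocalRing.maximalIdeal 𝓡.V → Place K F
  r_pt : ∀ a, 𝓡.r (pt a) = Q
  pt_surj : ∀ P : Place K F, 𝓡.r P = Q → ∃ a, pt a = P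
  /-- the reduction of the parameter is a uniformiser at `Q` -/
  ord_t : Q.ord (𝓡.red ⟨(D.t : F), ring_le _ D.t.2⟩) = 1
  /-- `ev a f` is the value of `f` at `pt a` -/
  ev_spec : ∀ (a : IsLocalRing.maximalIdeal 𝓡.V) (f : ring),
    (f : F) = algebraMap K F ((D.ev a f : 𝓡.V) : K) ∨
      1 ≤ (pt a).ord ((f : F) - algebraMap K F ((D.ev a f : 𝓡.V) : K))
  /-- the reduction of `ev a f` is the value of `red f` at `Q` -/
  red_ev : ∀ (a : IsLocalRing.maximalIdeal 𝓡.V) (f : ring),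
    𝓡.red ⟨(f : F), ring_le _ f.2⟩ = algebraMap k Fk (𝓡.res (D.ev a f)) ∨
      1 ≤ Q.ord (𝓡.red ⟨(f : F), ring_le _ f.2⟩ - algebraMap k Fk (𝓡.res (D.ev a f)))

/-- The effective divisor `Σ_i [pt_i (z i)]` of the polydisc point `z`. -/
def polyDiv {𝓡 : GoodRed K F k Fk} {ι : Type*} [Fintype ι] {Qs : ι → Place k Fk}
    (d : ∀ i, DiscData 𝓡 (Qs i)) (z : ι → IsLocalRing.maximalIdeal 𝓡.V) : Divisor K F :=
  ∑ i, Finsupp.single ((d i).pt (z i)) 1

section Statements

variable (K F k Fk)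

/-- **DISC.**  Every point of the special fibre has residue-disc data, with an
inertia-invariant parameter. -/
def DiscStatement : Prop :=
  ∀ (𝓡 : GoodRed K F k Fk) (Q : Place k Fk),
    ∃ d : DiscData 𝓡 Q, ∀ g ∈ 𝓡.I, g • ((d.D.t : d.ring) : F) = ((d.D.t : d.ring) : F)

/-- **DISC-I.**  For an inertia-invariant parameter the points of the disc are permuted by
inertia through their parameter values. -/
def DiscEquivStatement : Prop :=
  ∀ (𝓡 : GoodRed K F k Fk) (Q : Place k Fk) (d : DiscData 𝓡 Q),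
    (∀ g ∈ 𝓡.I, g • ((d.D.t : d.ring) : F) = ((d.D.t : d.ring) : F)) →
    ∀ g ∈ 𝓡.I, ∀ a : IsLocalRing.maximalIdeal 𝓡.V,
      ∃ h : SemilinearAut.baseAut g ((a : 𝓡.V) : K) ∈ 𝓡.V,
        ∃ h' : (⟨SemilinearAut.baseAut g ((a : 𝓡.V) : K), h⟩ : 𝓡.V) ∈
            IsLocalRing.maximalIdeal 𝓡.V,
          g • d.pt a = d.pt ⟨⟨SemilinearAut.baseAut g ((a : 𝓡.V) : K), h⟩, h'⟩

/-- **NSP.**  On the special fibre there are `g` distinct points `Q_i` with `ℓ(Σ Q_i) = 1`. -/
def NspStatement : Prop :=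
  ∀ [IsAlgClosed k] [Lib.RR.FF1 k Fk], ∃ Qs : Fin (genusFF k Fk) → Place k Fk, Function.Injective Qs ∧
    Lib.RR.ell (∑ i, Finsupp.single (Qs i) (1 : ℤ)) = 1

/-- **COORD.**  With `E = polyDiv d 0`: every class of the kernel of reduction is `[D_z - E]` for
a unique polydisc point `z`, and conversely. -/
def CoordStatement : Prop :=
  ∀ (𝓡 : GoodRed K F k Fk) (Qs : Fin (genusFF k Fk) → Place k Fk), Function.Injective Qs →
    @Lib.RR.ell k Fk _ _ _ (∑ i, Finsupp.single (Qs i) (1 : ℤ)) = 1 →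
    ∀ d : ∀ i, DiscData 𝓡 (Qs i),
      (∀ x ∈ 𝓡.kerRed, ∃! z : Fin (genusFF k Fk) → IsLocalRing.maximalIdeal 𝓡.V,
        ∃ D : Divisor.degZero (K := K) (F := F),
          (D : Divisor K F) = polyDiv d z - polyDiv d 0 ∧ Pic0.mk D = x) ∧
      ∀ z : Fin (genusFF k Fk) → IsLocalRing.maximalIdeal 𝓡.V,
        ∀ D : Divisor.degZero (K := K) (F := F),
          (D : Divisor K F) = polyDiv d z - polyDiv d 0 → Pic0.mk D ∈ 𝓡.kerRed

/-- **ZADD** (divisor form).  If `D_x + D_y ∼ D_s + E` for every parameter value `τ` of a finite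
set `T`, and the coordinates of `x`, `y` lie in the `V`-algebra `Λ` of functions on `T`, then so do
the coordinates of `s`. -/
def ZaddStatement.{w} : Prop :=
  ∀ (𝓡 : GoodRed K F k Fk) (Qs : Fin (genusFF k Fk) → Place k Fk), Function.Injective Qs →
    @Lib.RR.ell k Fk _ _ _ (∑ i, Finsupp.single (Qs i) (1 : ℤ)) = 1 →
    ∀ (d : ∀ i, DiscData 𝓡 (Qs i)) (T : Type w) [Finite T] (Λ : Subalgebra 𝓡.V (T → 𝓡.V))
      (zx zy zs : T → Fin (genusFF k Fk) → IsLocalRing.maximalIdeal 𝓡.V),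
      (∀ j, (fun τ => ((zx τ j : IsLocalRing.maximalIdeal 𝓡.V) : 𝓡.V)) ∈ Λ) →
      (∀ j, (fun τ => ((zy τ j : IsLocalRing.maximalIdeal 𝓡.V) : 𝓡.V)) ∈ Λ) →
      (∀ τ, polyDiv d (zx τ) + polyDiv d (zy τ) - polyDiv d (zs τ) - polyDiv d 0 ∈
        Divisor.principal (K := K) (F := F)) →
      ∀ i, (fun τ => ((zs τ i : IsLocalRing.maximalIdeal 𝓡.V) : 𝓡.V)) ∈ Λ

/-- **ZTRI** (sub-leaf of ZADD, one application of `local_mem` with `L(3E)`):
`D_x + D_y + D_w ∼ 3E`. -/
def ZtriStatement.{w} : Prop :=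
  ∀ (𝓡 : GoodRed K F k Fk) (Qs : Fin (genusFF k Fk) → Place k Fk), Function.Injective Qs →
    @Lib.RR.ell k Fk _ _ _ (∑ i, Finsupp.single (Qs i) (1 : ℤ)) = 1 →
    ∀ (d : ∀ i, DiscData 𝓡 (Qs i)) (T : Type w) [Finite T] (Λ : Subalgebra 𝓡.V (T → 𝓡.V))
      (zx zy zw : T → Fin (genusFF k Fk) → IsLocalRing.maximalIdeal 𝓡.V),
      (∀ j, (fun τ => ((zx τ j : IsLocalRing.maximalIdeal 𝓡.V) : 𝓡.V)) ∈ Λ) →
      (∀ j, (fun τ => ((zy τ j : IsLocalRing.maximalIdeal 𝓡.V) : 𝓡.V)) ∈ Λ) →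
      (∀ τ, polyDiv d (zx τ) + polyDiv d (zy τ) + polyDiv d (zw τ) - (3 : ℤ) • polyDiv d 0 ∈
        Divisor.principal (K := K) (F := F)) →
      ∀ i, (fun τ => ((zw τ i : IsLocalRing.maximalIdeal 𝓡.V) : 𝓡.V)) ∈ Λ

/-- **ZNEG** (sub-leaf of ZADD, one application of `local_mem` with `L(2E)`):
`D_x + D_n ∼ 2E`. -/
def ZnegStatement.{w} : Prop :=
  ∀ (𝓡 : GoodRed K F k Fk) (Qs : Fin (genusFF k Fk) → Place k Fk), Function.Injective Qs →
    @Lib.RR.ell k Fk _ _ _ (∑ i, Finsupp.single (Qs i) (1 : ℤ)) = 1 →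
    ∀ (d : ∀ i, DiscData 𝓡 (Qs i)) (T : Type w) [Finite T] (Λ : Subalgebra 𝓡.V (T → 𝓡.V))
      (zx zn : T → Fin (genusFF k Fk) → IsLocalRing.maximalIdeal 𝓡.V),
      (∀ j, (fun τ => ((zx τ j : IsLocalRing.maximalIdeal 𝓡.V) : 𝓡.V)) ∈ Λ) →
      (∀ τ, polyDiv d (zx τ) + polyDiv d (zn τ) - (2 : ℤ) • polyDiv d 0 ∈
        Divisor.principal (K := K) (F := F)) →
      ∀ i, (fun τ => ((zn τ i : IsLocalRing.maximalIdeal 𝓡.V) : 𝓡.V)) ∈ Λ

/-- **LIFTI.**  Every class is congruent modulo the kernel of reduction to an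
inertia-invariant class. -/
def LiftiStatement : Prop :=
  ∀ (𝓡 : GoodRed K F k Fk) (x : Pic0 K F),
    ∃ y : Pic0 K F, (∀ g ∈ 𝓡.I, g • y = y) ∧ x - y ∈ 𝓡.kerRed

end Statements

end Fermat.Agent.A3.H799
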