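import Fermat.Agent.A3.H799.LocalSpec

/-!
# A3 / LOCAL — FROZEN statements, second layer  (architect helper799)

Sub-leaves of ZTRI / ZNEG (both are the case `s = 2`, `s = 1` of one statement) and the
intermediate statement CHART between the leaves of `LocalSpec.lean` and `LocalStatement`.

    GEO    `GeoStatement`    pointwise geometry: the section through the moving points has exactly
                             one further zero in each disc (hypothesis `hgeo` of `local_mem`)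
    DET    `DetStatement`    integral functions `φ_j ∈ L((s+1)E)` whose jets of order `< s` along
                             the discs form a matrix of unit determinant (hypothesis `hdet`)
    CHART  `ChartStatement`  coordinates `z` on the kernel of reduction: injective, inertia
                             equivariant, addition algebraic for families
-/

set_option autoImplicit false

noncomputable section

open AlgebraicCurve

namespace Fermat.Agent.A3.H799

variable (K F k Fk : Type*) [Field K] [Field F] [Algebra K F] [Field k] [Field Fk] [Algebra k Fk]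

/-- **GEO.**  Pointwise geometric input of `local_mem`.  `E = polyDiv d 0`, `s` moving points
`zs r` and one further point `zw` with `Σ_r D_{zs r} + D_{zw} ∼ (s+1) E`.  If `φ ∈ L((s+1)E)` is
integral with reduction `1` and `t_i^{s+1} φ` is divisible by `∏_r (t_i - zs r i)` on every disc,
then the quotient is `(t_i - zw i) · u` with `u` a unit at `zw i`. -/
def GeoStatement : Prop :=
  ∀ (𝓡 : GoodRed K F k Fk) (Qs : Fin (genusFF k Fk) → Place k Fk), Function.Injective Qs →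
    @Lib.RR.ell k Fk _ _ _ (∑ i, Finsupp.single (Qs i) (1 : ℤ)) = 1 →
    ∀ (d : ∀ i, DiscData 𝓡 (Qs i)) (s : ℕ)
      (zs : Fin s → Fin (genusFF k Fk) → IsLocalRing.maximalIdeal 𝓡.V)
      (zw : Fin (genusFF k Fk) → IsLocalRing.maximalIdeal 𝓡.V),
      (∑ r, polyDiv d (zs r)) + polyDiv d zw - ((s : ℤ) + 1) • polyDiv d 0 ∈
        Divisor.principal (K := K) (F := F) →
      ∀ φ : 𝓡.O, ((φ : 𝓡.O) : F) ∈ riemannRochSpace (((s : ℤ) + 1) • polyDiv d 0) →
        𝓡.red φ = 1 →
      ∀ G : ∀ i, (d i).ring,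
        (∀ i, ((G i : (d i).ring) : F) =
          ((((d i).D.t : (d i).ring) : F)) ^ (s + 1) * ((φ : 𝓡.O) : F)) →
        (∀ i, ∃ h : (d i).ring,
          G i = Polynomial.aeval (d i).D.t (DiscAlg.nodal (List.ofFn fun r => zs r i)) * h) →
        ∀ i, ∃ u : (d i).ring, IsUnit ((d i).D.ev (zw i) u) ∧
          G i = Polynomial.aeval (d i).D.t (DiscAlg.nodal (List.ofFn fun r => zs r i)) *
            ((d i).D.t - algebraMap 𝓡.V (d i).ring ((zw i : IsLocalRing.maximalIdeal 𝓡.V) : 𝓡.V)) * u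

/-- **DET.**  For `s ≥ 1` there are integral `φ_j ∈ L((s+1)E)`, `j ∈ Fin g × Fin s`, such that the
Taylor coefficients of order `< s` of `t_i^{s+1} φ_j` in the disc algebras form a matrix with unit
determinant (it can be chosen `≡ 1` modulo `𝔪`: jets on the special fibre are independent because
`ℓ(Ē) = 1`, i.e. `𝔸 = 𝔸(Ē) + Fk`). -/
def DetStatement : Prop :=
  ∀ (𝓡 : GoodRed K F k Fk) (Qs : Fin (genusFF k Fk) → Place k Fk), Function.Injective Qs →
    @Lib.RR.ell k Fk _ _ _ (∑ i, Finsupp.single (Qs i) (1 : ℤ)) = 1 →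
    ∀ (d : ∀ i, DiscData 𝓡 (Qs i)) (s : ℕ), 0 < s →
      ∃ (φ : (Σ _ : Fin (genusFF k Fk), Fin s) → 𝓡.O)
        (f : (Σ _ : Fin (genusFF k Fk), Fin s) → ∀ i, (d i).ring)
        (P : (Σ _ : Fin (genusFF k Fk), Fin s) → Fin (genusFF k Fk) → Polynomial 𝓡.V)
        (H : (Σ _ : Fin (genusFF k Fk), Fin s) → ∀ i, (d i).ring),
        (∀ j, ((φ j : 𝓡.O) : F) ∈ riemannRochSpace (((s : ℤ) + 1) • polyDiv d 0)) ∧
        (∀ j i, ((f j i : (d i).ring) : F) =
          ((((d i).D.t : (d i).ring) : F)) ^ (s + 1) * ((φ j : 𝓡.O) : F)) ∧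
        (∀ j i, f j i = Polynomial.aeval (d i).D.t (P j i) + (d i).D.t ^ s * H j i) ∧
        ∀ [DecidableEq (Σ _ : Fin (genusFF k Fk), Fin s)],
          IsUnit (Matrix.of fun (c j : Σ _ : Fin (genusFF k Fk), Fin s) =>
            (P j c.1).coeff (c.2 : ℕ)).det

/-- **ZGEN** (general number `s ≥ 1` of moving points; ZTRI is `s = 2`, ZNEG is `s = 1`). -/
def ZgenStatement.{w} : Prop :=
  ∀ (𝓡 : GoodRed K F k Fk) (Qs : Fin (genusFF k Fk) → Place k Fk), Function.Injective Qs →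
    @Lib.RR.ell k Fk _ _ _ (∑ i, Finsupp.single (Qs i) (1 : ℤ)) = 1 →
    ∀ (d : ∀ i, DiscData 𝓡 (Qs i)) (T : Type w) [Finite T] (Λ : Subalgebra 𝓡.V (T → 𝓡.V))
      (s : ℕ), 0 < s →
      ∀ (zs : Fin s → T → Fin (genusFF k Fk) → IsLocalRing.maximalIdeal 𝓡.V)
        (zw : T → Fin (genusFF k Fk) → IsLocalRing.maximalIdeal 𝓡.V),
      (∀ r j, (fun τ => ((zs r τ j : IsLocalRing.maximalIdeal 𝓡.V) : 𝓡.V)) ∈ Λ) →
      (∀ τ, (∑ r, polyDiv d (zs r τ)) + polyDiv d (zw τ) - ((s : ℤ) + 1) • polyDiv d 0 ∈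
        Divisor.principal (K := K) (F := F)) →
      ∀ i, (fun τ => ((zw τ i : IsLocalRing.maximalIdeal 𝓡.V) : 𝓡.V)) ∈ Λ

/-- **CHART.**  Coordinates on the kernel of reduction: injective, inertia-equivariant, with
algebraic addition for families over a finite set. -/
def ChartStatement.{w} : Prop :=
  ∀ (𝓡 : GoodRed K F k Fk),
    ∃ (n : ℕ) (z : 𝓡.kerRed → Fin n → IsLocalRing.maximalIdeal 𝓡.V),
      Function.Injective z ∧
      (∀ g ∈ 𝓡.I, ∀ (u : 𝓡.kerRed) (hgu : g • (u : Pic0 K F) ∈ 𝓡.kerRed) (i : Fin n),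
        (((z ⟨g • (u : Pic0 K F), hgu⟩ i : IsLocalRing.maximalIdeal 𝓡.V) : 𝓡.V) : K) =
          SemilinearAut.baseAut g (((z u i : IsLocalRing.maximalIdeal 𝓡.V) : 𝓡.V) : K)) ∧
      ∀ (T : Type w) [Finite T] (Λ : Subalgebra 𝓡.V (T → 𝓡.V)) (a b : T → 𝓡.kerRed),
        (∀ j, (fun τ => ((z (a τ) j : IsLocalRing.maximalIdeal 𝓡.V) : 𝓡.V)) ∈ Λ) →
        (∀ j, (fun τ => ((z (b τ) j : IsLocalRing.maximalIdeal 𝓡.V) : 𝓡.V)) ∈ Λ) →
        ∀ i, (fun τ => ((z (a τ + b τ) i : IsLocalRing.maximalIdeal 𝓡.V) : 𝓡.V)) ∈ Λ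

/-- **KER-I.**  Inertia acts trivially modulo the kernel of reduction. -/
def KerInertiaStatement : Prop :=
  ∀ (𝓡 : GoodRed K F k Fk), ∀ g ∈ 𝓡.I, ∀ x : Pic0 K F, g • x - x ∈ 𝓡.kerRed

end Fermat.Agent.A3.H799
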