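import Fermat.Agent.A3.H799.LocalSpec2

/-!
# A3 / LOCAL — assembly: CHART + KER-I + LIFTI ⟹ `LocalStatement`  (helper799)

Coordinates on a finite inertia-stable subgroup `T ⊆ Pic0`:

* the indicator functions of the classes of `T` modulo the kernel of reduction `J`;
* on every class `c` the chart coordinates `z_i (x - yt_c)`, where `yt_c` is an inertia-invariant
  class congruent to `c` modulo `J` (LIFTI), extended by `0`.

Addition is algebraic: on the box `c₁ × c₂` one has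
`x + y - yt_{c₁+c₂} = (x - yt_{c₁}) + (y - yt_{c₂}) + const`, two applications of the chart addition
property for the algebra `Λ = {f | 1_box · f ∈ 𝒜}`.
-/

set_option autoImplicit false

noncomputable section

open AlgebraicCurve

namespace Fermat.Agent.A3.H799

universe u₁ u₂ u₃ u₄

variable {K : Type u₁} {F : Type u₂} {k : Type u₃} {Fk : Type u₄}
  [Field K] [Field F] [Algebra K F] [Field k] [Field Fk] [Algebra k Fk]

section BoxAlg

variable {V : Type*} [CommRing V] {X : Type*} {K' : Type*} [CommRing K'] [Algebra V K']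

/-- For an idempotent `e` of a subalgebra `𝒜` of `K'`-valued functions: the algebra of `V`-valued
functions `f` with `e · f ∈ 𝒜`. -/
def boxAlg (𝒜 : Subalgebra V (X → K')) (e : X → K') (he : e * e = e) (heA : e ∈ 𝒜) :
    Subalgebra V (X → V) where
  carrier := {f | (fun p => e p * algebraMap V K' (f p)) ∈ 𝒜}
  mul_mem' := by
    intro f g hf hg
    have h : (fun p => e p * algebraMap V K' ((f * g) p)) =
        (fun p => e p * algebraMap V K' (f p)) * (fun p => e p * algebraMap V K' (g p)) := by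
      funext p
      have := congrFun he p
      simp only [Pi.mul_apply] at this ⊢
      rw [map_mul]
      calc e p * (algebraMap V K' (f p) * algebraMap V K' (g p))
          = (e p * e p) * (algebraMap V K' (f p) * algebraMap V K' (g p)) := by rw [this]
        _ = _ := by ring
    show (fun p => e p * algebraMap V K' ((f * g) p)) ∈ 𝒜
    rw [h]
    exact 𝒜.mul_mem hf hg
  add_mem' := by
    intro f g hf hg
    have h : (fun p => e p * algebraMap V K' ((f + g) p)) =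
        (fun p => e p * algebraMap V K' (f p)) + (fun p => e p * algebraMap V K' (g p)) := by
      funext p
      simp only [Pi.add_apply, map_add]
      ring
    show (fun p => e p * algebraMap V K' ((f + g) p)) ∈ 𝒜
    rw [h]
    exact 𝒜.add_mem hf hg
  algebraMap_mem' := by
    intro v
    have h : (fun p => e p * algebraMap V K' ((algebraMap V (X → V) v) p)) = v • e := by
      funext p
      simp only [Pi.smul_apply, Algebra.smul_def]
      rw [mul_comm]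
      rfl
    show (fun p => e p * algebraMap V K' ((algebraMap V (X → V) v) p)) ∈ 𝒜
    rw [h]
    exact 𝒜.smul_mem heA v

theorem mem_boxAlg {𝒜 : Subalgebra V (X → K')} {e : X → K'} {he : e * e = e} {heA : e ∈ 𝒜}
    {f : X → V} : f ∈ boxAlg 𝒜 e he heA ↔ (fun p => e p * algebraMap V K' (f p)) ∈ 𝒜 := Iff.rfl

end BoxAlg

section Classes

variable (𝓡 : GoodRed K F k Fk) (T : AddSubgroup (Pic0 K F))

/-- The kernel of reduction inside `T`. -/
def tKer : AddSubgroup T := 𝓡.kerRed.comap T.subtype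

variable {𝓡 T}

theorem mk_eq_mk_iff (x y : T) :
    (QuotientAddGroup.mk x : T ⧸ tKer 𝓡 T) = QuotientAddGroup.mk y ↔
      (x : Pic0 K F) - (y : Pic0 K F) ∈ 𝓡.kerRed := by
  rw [QuotientAddGroup.eq]
  show -(x : Pic0 K F) + (y : Pic0 K F) ∈ 𝓡.kerRed ↔ _
  rw [← neg_mem_iff (H := 𝓡.kerRed)]
  have h : -(-(x : Pic0 K F) + (y : Pic0 K F)) = (x : Pic0 K F) - (y : Pic0 K F) := by abel
  rw [h]

theorem sub_out_mem (x : T) (c : T ⧸ tKer 𝓡 T) (h : (QuotientAddGroup.mk x : T ⧸ tKer 𝓡 T) = c) :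
    (x : Pic0 K F) - ((Quotient.out c : T) : Pic0 K F) ∈ 𝓡.kerRed := by
  rw [← mk_eq_mk_iff, h]
  exact (QuotientAddGroup.out_eq' c).symm

end Classes

section Coordinates

variable {𝓡 : GoodRed K F k Fk} {T : AddSubgroup (Pic0 K F)} {n : ℕ}
  (z : 𝓡.kerRed → Fin n → IsLocalRing.maximalIdeal 𝓡.V) (yt : T ⧸ tKer 𝓡 T → Pic0 K F)
  (hmem : ∀ (x : T) (c : T ⧸ tKer 𝓡 T), (QuotientAddGroup.mk x : T ⧸ tKer 𝓡 T) = c →
    (x : Pic0 K F) - yt c ∈ 𝓡.kerRed)

open Classical in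
/-- The coordinates: class indicators and chart coordinates on each class. -/
def psi₀ (x : T) : (T ⧸ tKer 𝓡 T) ⊕ (T ⧸ tKer 𝓡 T) × Fin n → K
  | Sum.inl c => if (QuotientAddGroup.mk x : T ⧸ tKer 𝓡 T) = c then 1 else 0
  | Sum.inr (c, i) =>
      if h : (QuotientAddGroup.mk x : T ⧸ tKer 𝓡 T) = c then
        (((z ⟨(x : Pic0 K F) - yt c, hmem x c h⟩ i : IsLocalRing.maximalIdeal 𝓡.V) : 𝓡.V) : K)
      else 0

open Classical in
theorem psi₀_inl (x : T) (c : T ⧸ tKer 𝓡 T) :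
    psi₀ z yt hmem x (Sum.inl c) =
      if (QuotientAddGroup.mk x : T ⧸ tKer 𝓡 T) = c then 1 else 0 := by
  simp only [psi₀]

open Classical in
theorem psi₀_inr (x : T) (c : T ⧸ tKer 𝓡 T) (i : Fin n) :
    psi₀ z yt hmem x (Sum.inr (c, i)) =
      if h : (QuotientAddGroup.mk x : T ⧸ tKer 𝓡 T) = c then
        (((z ⟨(x : Pic0 K F) - yt c, hmem x c h⟩ i : IsLocalRing.maximalIdeal 𝓡.V) : 𝓡.V) : K)
      else 0 := by
  simp only [psi₀]

open Classical in
theorem psi₀_inr_pos (x : T) (c : T ⧸ tKer 𝓡 T) (i : Fin n)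
    (h : (QuotientAddGroup.mk x : T ⧸ tKer 𝓡 T) = c) :
    psi₀ z yt hmem x (Sum.inr (c, i)) =
      (((z ⟨(x : Pic0 K F) - yt c, hmem x c h⟩ i : IsLocalRing.maximalIdeal 𝓡.V) : 𝓡.V) : K) := by
  rw [psi₀_inr, dif_pos h]

open Classical in
theorem psi₀_inr_neg (x : T) (c : T ⧸ tKer 𝓡 T) (i : Fin n)
    (h : ¬ (QuotientAddGroup.mk x : T ⧸ tKer 𝓡 T) = c) :
    psi₀ z yt hmem x (Sum.inr (c, i)) = 0 := by
  rw [psi₀_inr, dif_neg h]

open Classical in
theorem psi₀_mem (x : T) (j : (T ⧸ tKer 𝓡 T) ⊕ (T ⧸ tKer 𝓡 T) × Fin n) :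
    psi₀ z yt hmem x j ∈ 𝓡.V := by
  rcases j with c | ⟨c, i⟩
  · rw [psi₀_inl]
    split_ifs
    · exact 𝓡.V.one_mem
    · exact 𝓡.V.zero_mem
  · rw [psi₀_inr]
    split_ifs
    · exact Subtype.coe_prop _
    · exact 𝓡.V.zero_mem

open Classical in
theorem psi₀_injective (hz : Function.Injective z) : Function.Injective (psi₀ z yt hmem) := by
  intro x x' h
  have h1 := congrFun h (Sum.inl (QuotientAddGroup.mk x))
  rw [psi₀_inl, psi₀_inl, if_pos rfl] at h1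
  have hc : (QuotientAddGroup.mk x' : T ⧸ tKer 𝓡 T) = QuotientAddGroup.mk x := by
    by_contra hne
    rw [if_neg hne] at h1
    exact one_ne_zero h1
  have h2 : z ⟨(x : Pic0 K F) - yt (QuotientAddGroup.mk x), hmem x _ rfl⟩ =
      z ⟨(x' : Pic0 K F) - yt (QuotientAddGroup.mk x), hmem x' _ hc⟩ := by
    funext i
    have h3 := congrFun h (Sum.inr (QuotientAddGroup.mk x, i))
    rw [psi₀_inr_pos z yt hmem x _ i rfl, psi₀_inr_pos z yt hmem x' _ i hc] at h3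
    exact Subtype.ext (Subtype.ext h3)
  have h4 := congrArg Subtype.val (hz h2)
  simp only [sub_left_inj] at h4
  exact Subtype.ext h4

open Classical in
theorem psi₀_smul (hker : ∀ g ∈ 𝓡.I, ∀ x : Pic0 K F, g • x - x ∈ 𝓡.kerRed)
    (hyI : ∀ c, ∀ g ∈ 𝓡.I, g • yt c = yt c)
    (hzeq : ∀ g ∈ 𝓡.I, ∀ (u : 𝓡.kerRed) (hgu : g • (u : Pic0 K F) ∈ 𝓡.kerRed) (i : Fin n),
      (((z ⟨g • (u : Pic0 K F), hgu⟩ i : IsLocalRing.maximalIdeal 𝓡.V) : 𝓡.V) : K) =
        SemilinearAut.baseAut g (((z u i : IsLocalRing.maximalIdeal 𝓡.V) : 𝓡.V) : K))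
    (g : SemilinearAut K F) (hg : g ∈ 𝓡.I) (x : T) (hgx : g • (x : Pic0 K F) ∈ T)
    (j : (T ⧸ tKer 𝓡 T) ⊕ (T ⧸ tKer 𝓡 T) × Fin n) :
    psi₀ z yt hmem ⟨g • (x : Pic0 K F), hgx⟩ j =
      SemilinearAut.baseAut g (psi₀ z yt hmem x j) := by
  have hmk : (QuotientAddGroup.mk (⟨g • (x : Pic0 K F), hgx⟩ : T) : T ⧸ tKer 𝓡 T) =
      QuotientAddGroup.mk x := by
    rw [mk_eq_mk_iff]
    exact hker g hg _
  rcases j with c | ⟨c, i⟩
  · rw [psi₀_inl, psi₀_inl, hmk]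
    split_ifs
    · rw [map_one]
    · rw [map_zero]
  · by_cases h : (QuotientAddGroup.mk x : T ⧸ tKer 𝓡 T) = c
    · have h' : (QuotientAddGroup.mk (⟨g • (x : Pic0 K F), hgx⟩ : T) : T ⧸ tKer 𝓡 T) = c := by
        rw [hmk, h]
      rw [psi₀_inr_pos z yt hmem _ c i h', psi₀_inr_pos z yt hmem x c i h]
      have heq : g • ((x : Pic0 K F) - yt c) = g • (x : Pic0 K F) - yt c := by
        rw [smul_sub, hyI c g hg]
      have hgu : g • ((x : Pic0 K F) - yt c) ∈ 𝓡.kerRed := by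
        rw [heq]
        exact hmem _ c h'
      rw [← hzeq g hg ⟨(x : Pic0 K F) - yt c, hmem x c h⟩ hgu i]
      congr 4
      exact heq.symm
    · have h' : ¬ (QuotientAddGroup.mk (⟨g • (x : Pic0 K F), hgx⟩ : T) : T ⧸ tKer 𝓡 T) = c := by
        rw [hmk]; exact h
      rw [psi₀_inr_neg z yt hmem _ c i h', psi₀_inr_neg z yt hmem x c i h, map_zero]

open Classical in
/-- Partition of unity by the boxes. -/
theorem mem_of_forall_box [Finite T] (𝒜 : Subalgebra 𝓡.V (T × T → K)) (G : T × T → K)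
    (h : ∀ c₁ c₂ : T ⧸ tKer 𝓡 T, (fun p : T × T =>
      ((if (QuotientAddGroup.mk p.1 : T ⧸ tKer 𝓡 T) = c₁ then (1 : K) else 0) *
        (if (QuotientAddGroup.mk p.2 : T ⧸ tKer 𝓡 T) = c₂ then (1 : K) else 0)) * G p) ∈ 𝒜) :
    G ∈ 𝒜 := by
  haveI : Fintype (T ⧸ tKer 𝓡 T) := Fintype.ofFinite _
  have hG : G = ∑ c₁ : T ⧸ tKer 𝓡 T, ∑ c₂ : T ⧸ tKer 𝓡 T, (fun p : T × T =>
      ((if (QuotientAddGroup.mk p.1 : T ⧸ tKer 𝓡 T) = c₁ then (1 : K) else 0) *
        (if (QuotientAddGroup.mk p.2 : T ⧸ tKer 𝓡 T) = c₂ then (1 : K) else 0)) * G p) := by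
    funext p
    simp only [Finset.sum_apply]
    simp only [← Finset.sum_mul, ← Finset.mul_sum]
    simp
  rw [hG]
  exact Subalgebra.sum_mem _ fun c₁ _ => Subalgebra.sum_mem _ fun c₂ _ => h c₁ c₂

open Classical in
theorem psi₀_add_mem [Finite T]
    (hzadd : ∀ (Λ : Subalgebra 𝓡.V (T × T → 𝓡.V)) (a b : T × T → 𝓡.kerRed),
      (∀ j, (fun τ => ((z (a τ) j : IsLocalRing.maximalIdeal 𝓡.V) : 𝓡.V)) ∈ Λ) →
      (∀ j, (fun τ => ((z (b τ) j : IsLocalRing.maximalIdeal 𝓡.V) : 𝓡.V)) ∈ Λ) →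
      ∀ i, (fun τ => ((z (a τ + b τ) i : IsLocalRing.maximalIdeal 𝓡.V) : 𝓡.V)) ∈ Λ)
    (j : (T ⧸ tKer 𝓡 T) ⊕ (T ⧸ tKer 𝓡 T) × Fin n) :
    (fun p : T × T => psi₀ z yt hmem (p.1 + p.2) j) ∈
      Algebra.adjoin 𝓡.V ({f | ∃ j, f = fun p : T × T => psi₀ z yt hmem p.1 j} ∪
        {f | ∃ j, f = fun p : T × T => psi₀ z yt hmem p.2 j}) := by
  set 𝒜 := Algebra.adjoin 𝓡.V ({f | ∃ j, f = fun p : T × T => psi₀ z yt hmem p.1 j} ∪
        {f | ∃ j, f = fun p : T × T => psi₀ z yt hmem p.2 j}) with h𝒜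
  have g1 : ∀ j, (fun p : T × T => psi₀ z yt hmem p.1 j) ∈ 𝒜 :=
    fun j => Algebra.subset_adjoin (Or.inl ⟨j, rfl⟩)
  have g2 : ∀ j, (fun p : T × T => psi₀ z yt hmem p.2 j) ∈ 𝒜 :=
    fun j => Algebra.subset_adjoin (Or.inr ⟨j, rfl⟩)
  -- the box idempotents
  have hbox : ∀ c₁ c₂ : T ⧸ tKer 𝓡 T, (fun p : T × T =>
      (if (QuotientAddGroup.mk p.1 : T ⧸ tKer 𝓡 T) = c₁ then (1 : K) else 0) *
        (if (QuotientAddGroup.mk p.2 : T ⧸ tKer 𝓡 T) = c₂ then (1 : K) else 0)) ∈ 𝒜 := by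
    intro c₁ c₂
    have := 𝒜.mul_mem (g1 (Sum.inl c₁)) (g2 (Sum.inl c₂))
    simp only [psi₀_inl] at this
    exact this
  have hidem : ∀ c₁ c₂ : T ⧸ tKer 𝓡 T, (fun p : T × T =>
      (if (QuotientAddGroup.mk p.1 : T ⧸ tKer 𝓡 T) = c₁ then (1 : K) else 0) *
        (if (QuotientAddGroup.mk p.2 : T ⧸ tKer 𝓡 T) = c₂ then (1 : K) else 0)) *
      (fun p : T × T =>
      (if (QuotientAddGroup.mk p.1 : T ⧸ tKer 𝓡 T) = c₁ then (1 : K) else 0) *
        (if (QuotientAddGroup.mk p.2 : T ⧸ tKer 𝓡 T) = c₂ then (1 : K) else 0)) =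
      (fun p : T × T =>
      (if (QuotientAddGroup.mk p.1 : T ⧸ tKer 𝓡 T) = c₁ then (1 : K) else 0) *
        (if (QuotientAddGroup.mk p.2 : T ⧸ tKer 𝓡 T) = c₂ then (1 : K) else 0)) := by
    intro c₁ c₂
    funext p
    simp only [Pi.mul_apply]
    split_ifs <;> simp
  -- the key lemma on a box
  have hkey : ∀ (c₁ c₂ : T ⧸ tKer 𝓡 T) (i : Fin n), (fun p : T × T =>
      ((if (QuotientAddGroup.mk p.1 : T ⧸ tKer 𝓡 T) = c₁ then (1 : K) else 0) *
        (if (QuotientAddGroup.mk p.2 : T ⧸ tKer 𝓡 T) = c₂ then (1 : K) else 0)) *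
        psi₀ z yt hmem (p.1 + p.2) (Sum.inr (c₁ + c₂, i))) ∈ 𝒜 := by
    intro c₁ c₂ i
    set Λ := boxAlg 𝒜 _ (hidem c₁ c₂) (hbox c₁ c₂) with hΛ
    -- the families
    let a : T × T → 𝓡.kerRed := fun p =>
      if h : (QuotientAddGroup.mk p.1 : T ⧸ tKer 𝓡 T) = c₁ then
        ⟨(p.1 : Pic0 K F) - yt c₁, hmem p.1 c₁ h⟩ else 0
    let b : T × T → 𝓡.kerRed := fun p =>
      if h : (QuotientAddGroup.mk p.2 : T ⧸ tKer 𝓡 T) = c₂ then
        ⟨(p.2 : Pic0 K F) - yt c₂, hmem p.2 c₂ h⟩ else 0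
    have hc₀ : yt c₁ + yt c₂ - yt (c₁ + c₂) ∈ 𝓡.kerRed := by
      have h1 := hmem (Quotient.out c₁) c₁ (QuotientAddGroup.out_eq' c₁)
      have h2 := hmem (Quotient.out c₂) c₂ (QuotientAddGroup.out_eq' c₂)
      have h3 := hmem (Quotient.out c₁ + Quotient.out c₂) (c₁ + c₂) (by
        rw [QuotientAddGroup.mk_add, QuotientAddGroup.out_eq', QuotientAddGroup.out_eq'])
      have h4 : yt c₁ + yt c₂ - yt (c₁ + c₂) =
          (((Quotient.out c₁ + Quotient.out c₂ : T) : Pic0 K F) - yt (c₁ + c₂)) -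
            (((Quotient.out c₁ : T) : Pic0 K F) - yt c₁) -
            (((Quotient.out c₂ : T) : Pic0 K F) - yt c₂) := by
        rw [AddSubgroup.coe_add]
        abel
      rw [h4]
      exact sub_mem (sub_mem h3 h1) h2
    let c₀ : T × T → 𝓡.kerRed := fun _ => ⟨yt c₁ + yt c₂ - yt (c₁ + c₂), hc₀⟩
    have ha : ∀ j, (fun τ => ((z (a τ) j : IsLocalRing.maximalIdeal 𝓡.V) : 𝓡.V)) ∈ Λ := by
      intro j
      rw [hΛ, mem_boxAlg]
      have := 𝒜.mul_mem (g2 (Sum.inl c₂)) (g1 (Sum.inr (c₁, j)))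
      convert this using 1
      funext p
      simp only [Pi.mul_apply, psi₀_inl]
      by_cases h : (QuotientAddGroup.mk p.1 : T ⧸ tKer 𝓡 T) = c₁
      · rw [psi₀_inr_pos z yt hmem p.1 c₁ j h, if_pos h, one_mul]
        simp only [a, dif_pos h]
        rfl
      · rw [psi₀_inr_neg z yt hmem p.1 c₁ j h, if_neg h]
        simp
    have hb : ∀ j, (fun τ => ((z (b τ) j : IsLocalRing.maximalIdeal 𝓡.V) : 𝓡.V)) ∈ Λ := by
      intro j
      rw [hΛ, mem_boxAlg]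
      have := 𝒜.mul_mem (g1 (Sum.inl c₁)) (g2 (Sum.inr (c₂, j)))
      convert this using 1
      funext p
      simp only [Pi.mul_apply, psi₀_inl]
      by_cases h : (QuotientAddGroup.mk p.2 : T ⧸ tKer 𝓡 T) = c₂
      · rw [psi₀_inr_pos z yt hmem p.2 c₂ j h, if_pos h, mul_one]
        simp only [b, dif_pos h]
        rfl
      · rw [psi₀_inr_neg z yt hmem p.2 c₂ j h, if_neg h]
        simp
    have hc : ∀ j, (fun τ => ((z (c₀ τ) j : IsLocalRing.maximalIdeal 𝓡.V) : 𝓡.V)) ∈ Λ := by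
      intro j
      exact Λ.algebraMap_mem ((z ⟨yt c₁ + yt c₂ - yt (c₁ + c₂), hc₀⟩ j :
        IsLocalRing.maximalIdeal 𝓡.V) : 𝓡.V)
    have hab := hzadd Λ a b ha hb
    have habc := hzadd Λ (fun τ => a τ + b τ) c₀ hab hc i
    rw [hΛ, mem_boxAlg] at habc
    convert habc using 1
    funext p
    by_cases h1 : (QuotientAddGroup.mk p.1 : T ⧸ tKer 𝓡 T) = c₁
    · by_cases h2 : (QuotientAddGroup.mk p.2 : T ⧸ tKer 𝓡 T) = c₂
      · have h12 : (QuotientAddGroup.mk (p.1 + p.2) : T ⧸ tKer 𝓡 T) = c₁ + c₂ := by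
          rw [QuotientAddGroup.mk_add, h1, h2]
        rw [psi₀_inr_pos z yt hmem _ _ i h12]
        congr 5
        simp only [a, b, c₀, dif_pos h1, dif_pos h2, AddSubgroup.coe_add]
        abel
      · simp [h2]
    · simp [h1]
  -- conclusion
  apply mem_of_forall_box
  intro c₁ c₂
  rcases j with c | ⟨c, i⟩
  · have hfun : (fun p : T × T =>
        ((if (QuotientAddGroup.mk p.1 : T ⧸ tKer 𝓡 T) = c₁ then (1 : K) else 0) *
          (if (QuotientAddGroup.mk p.2 : T ⧸ tKer 𝓡 T) = c₂ then (1 : K) else 0)) *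
          psi₀ z yt hmem (p.1 + p.2) (Sum.inl c)) =
        if c₁ + c₂ = c then (fun p : T × T =>
          (if (QuotientAddGroup.mk p.1 : T ⧸ tKer 𝓡 T) = c₁ then (1 : K) else 0) *
            (if (QuotientAddGroup.mk p.2 : T ⧸ tKer 𝓡 T) = c₂ then (1 : K) else 0)) else 0 := by
      funext p
      rw [psi₀_inl, QuotientAddGroup.mk_add]
      by_cases hcc : c₁ + c₂ = c
      · rw [if_pos hcc]
        by_cases h1 : (QuotientAddGroup.mk p.1 : T ⧸ tKer 𝓡 T) = c₁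
        · by_cases h2 : (QuotientAddGroup.mk p.2 : T ⧸ tKer 𝓡 T) = c₂
          · simp [h1, h2, hcc]
          · simp [h2]
        · simp [h1]
      · rw [if_neg hcc]
        by_cases h1 : (QuotientAddGroup.mk p.1 : T ⧸ tKer 𝓡 T) = c₁
        · by_cases h2 : (QuotientAddGroup.mk p.2 : T ⧸ tKer 𝓡 T) = c₂
          · simp [h1, h2, hcc]
          · simp [h2]
        · simp [h1]
    rw [hfun]
    split_ifs
    · exact hbox c₁ c₂
    · exact 𝒜.zero_mem
  · by_cases hcc : c₁ + c₂ = c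
    · subst hcc
      exact hkey c₁ c₂ i
    · have hfun : (fun p : T × T =>
        ((if (QuotientAddGroup.mk p.1 : T ⧸ tKer 𝓡 T) = c₁ then (1 : K) else 0) *
          (if (QuotientAddGroup.mk p.2 : T ⧸ tKer 𝓡 T) = c₂ then (1 : K) else 0)) *
          psi₀ z yt hmem (p.1 + p.2) (Sum.inr (c, i))) = 0 := by
        funext p
        by_cases h1 : (QuotientAddGroup.mk p.1 : T ⧸ tKer 𝓡 T) = c₁
        · by_cases h2 : (QuotientAddGroup.mk p.2 : T ⧸ tKer 𝓡 T) = c₂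
          · have h12 : ¬ (QuotientAddGroup.mk (p.1 + p.2) : T ⧸ tKer 𝓡 T) = c := by
              rw [QuotientAddGroup.mk_add, h1, h2]; exact hcc
            rw [psi₀_inr_neg z yt hmem _ _ i h12]
            simp
          · simp [h2]
        · simp [h1]
      rw [hfun]
      exact 𝒜.zero_mem

end Coordinates

section Main

variable [IsAlgClosed K] [IsAlgClosed k] [CharZero K]

/-- **Assembly.**  CHART + KER-I + LIFTI ⟹ `LocalStatement`. -/
theorem local_of_chart (hchart : ChartStatement.{u₁, u₂, u₃, u₄, u₂} K F k Fk)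
    (hker : KerInertiaStatement K F k Fk) (hlift : LiftiStatement K F k Fk) :
    LocalStatement K F k Fk := by
  classical
  intro 𝓡 _ T _ hT
  obtain ⟨n, z, hzinj, hzeq, hzadd⟩ := hchart 𝓡
  have hl : ∀ c : T ⧸ tKer 𝓡 T, ∃ y : Pic0 K F, (∀ g ∈ 𝓡.I, g • y = y) ∧
      ((Quotient.out c : T) : Pic0 K F) - y ∈ 𝓡.kerRed := fun c => hlift 𝓡 _
  choose yt hyI hyJ using hl
  have hmem : ∀ (x : T) (c : T ⧸ tKer 𝓡 T), (QuotientAddGroup.mk x : T ⧸ tKer 𝓡 T) = c →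
      (x : Pic0 K F) - yt c ∈ 𝓡.kerRed := by
    intro x c h
    have h1 := sub_out_mem x c h
    have h2 : (x : Pic0 K F) - yt c = ((x : Pic0 K F) - ((Quotient.out c : T) : Pic0 K F)) +
        (((Quotient.out c : T) : Pic0 K F) - yt c) := by abel
    rw [h2]
    exact add_mem h1 (hyJ c)
  -- the index type
  haveI : Finite (T ⧸ tKer 𝓡 T) := inferInstance
  haveI : Finite ((T ⧸ tKer 𝓡 T) ⊕ (T ⧸ tKer 𝓡 T) × Fin n) := inferInstance
  obtain ⟨m, ⟨e⟩⟩ := Finite.exists_equiv_fin ((T ⧸ tKer 𝓡 T) ⊕ (T ⧸ tKer 𝓡 T) × Fin n)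
  refine ⟨Fin m, inferInstance, fun x i => psi₀ z yt hmem x (e.symm i), ?_, ?_, ?_, ?_⟩
  · intro x x' h
    apply psi₀_injective z yt hmem hzinj
    funext j
    have := congrFun h (e j)
    simpa using this
  · intro x i
    exact psi₀_mem z yt hmem x _
  · intro g hg x i
    exact psi₀_smul z yt hmem (hker 𝓡) hyI hzeq g hg x _ _
  · intro i
    have := psi₀_add_mem z yt hmem (fun Λ a b => hzadd (T × T) Λ a b) (e.symm i)
    refine Algebra.adjoin_mono ?_ this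
    rintro f (⟨j, rfl⟩ | ⟨j, rfl⟩)
    · left
      exact ⟨e j, by simp⟩
    · right
      exact ⟨e j, by simp⟩

end Main

end Fermat.Agent.A3.H799
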