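import Fermat.Agent.A3.H799.LocalSpec2
import Fermat.Agent.A3.H255.Coord

/-!
# A3 / LOCAL — ZADD and CHART from the leaves  (helper799)

* `zadd_of  : CoordStatement → ZtriStatement → ZnegStatement → ZaddStatement`
* `chart_of : NspStatement → DiscStatement → DiscEquivStatement → CoordStatement →
              ZaddStatement → ChartStatement`
-/

set_option autoImplicit false

noncomputable section

open AlgebraicCurve Fermat.Agent.Lib.RR

namespace Fermat.Agent.A3.H799

universe u₁ u₂ u₃ u₄ w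

variable {K : Type u₁} {F : Type u₂} {k : Type u₃} {Fk : Type u₄}
  [Field K] [Field F] [Algebra K F] [Field k] [Field Fk] [Algebra k Fk]

theorem pic0_mk_eq_zero_iff (D : Divisor.degZero (K := K) (F := F)) :
    Pic0.mk D = 0 ↔ (D : Divisor K F) ∈ Divisor.principal (K := K) (F := F) := by
  unfold Pic0.mk
  rw [QuotientAddGroup.eq_zero_iff, AddSubgroup.mem_addSubgroupOf]

section Cls

variable {𝓡 : GoodRed K F k Fk} {ι : Type*} [Fintype ι] {Qs : ι → Place k Fk}
  (d : ∀ i, DiscData 𝓡 (Qs i))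

/-- The degree-zero divisor `D_z - E`. -/
def polyDivZ (z : ι → IsLocalRing.maximalIdeal 𝓡.V) : Divisor.degZero (K := K) (F := F) :=
  ⟨polyDiv d z - polyDiv d 0, by
    rw [Divisor.mem_degZero, map_sub, H255.degree_polyDiv, H255.degree_polyDiv, sub_self]⟩

@[simp] theorem coe_polyDivZ (z : ι → IsLocalRing.maximalIdeal 𝓡.V) :
    ((polyDivZ d z : Divisor.degZero (K := K) (F := F)) : Divisor K F) =
      polyDiv d z - polyDiv d 0 := rfl

/-- The class `[D_z - E]`. -/
def cls (z : ι → IsLocalRing.maximalIdeal 𝓡.V) : Pic0 K F := Pic0.mk (polyDivZ d z)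

theorem exists_iff_cls (z : ι → IsLocalRing.maximalIdeal 𝓡.V) (x : Pic0 K F) :
    (∃ D : Divisor.degZero (K := K) (F := F),
      (D : Divisor K F) = polyDiv d z - polyDiv d 0 ∧ Pic0.mk D = x) ↔ cls d z = x := by
  constructor
  · rintro ⟨D, hD, hx⟩
    have : D = polyDivZ d z := Subtype.ext hD
    rw [← hx, this]
    rfl
  · intro h
    exact ⟨polyDivZ d z, rfl, h⟩

theorem cls_add_sub_eq_zero_iff (zx zy zs : ι → IsLocalRing.maximalIdeal 𝓡.V) :
    cls d zx + cls d zy - cls d zs = 0 ↔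
      polyDiv d zx + polyDiv d zy - polyDiv d zs - polyDiv d 0 ∈
        Divisor.principal (K := K) (F := F) := by
  have h : cls d zx + cls d zy - cls d zs =
      Pic0.mk (polyDivZ d zx + polyDivZ d zy - polyDivZ d zs) := rfl
  rw [h, pic0_mk_eq_zero_iff]
  have h2 : ((polyDivZ d zx + polyDivZ d zy - polyDivZ d zs :
      Divisor.degZero (K := K) (F := F)) : Divisor K F) =
      polyDiv d zx + polyDiv d zy - polyDiv d zs - polyDiv d 0 := by
    push_cast
    simp only [coe_polyDivZ]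
    abel
  rw [h2]

theorem cls_add_add_eq_zero_iff (zx zy zw : ι → IsLocalRing.maximalIdeal 𝓡.V) :
    cls d zx + cls d zy + cls d zw = 0 ↔
      polyDiv d zx + polyDiv d zy + polyDiv d zw - (3 : ℤ) • polyDiv d 0 ∈
        Divisor.principal (K := K) (F := F) := by
  have h : cls d zx + cls d zy + cls d zw =
      Pic0.mk (polyDivZ d zx + polyDivZ d zy + polyDivZ d zw) := rfl
  rw [h, pic0_mk_eq_zero_iff]
  have h2 : ((polyDivZ d zx + polyDivZ d zy + polyDivZ d zw :
      Divisor.degZero (K := K) (F := F)) : Divisor K F) =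
      polyDiv d zx + polyDiv d zy + polyDiv d zw - (3 : ℤ) • polyDiv d 0 := by
    push_cast
    simp only [coe_polyDivZ]
    have : (3 : ℤ) • polyDiv d 0 = polyDiv d 0 + polyDiv d 0 + polyDiv d 0 := by
      rw [show (3 : ℤ) = 1 + 1 + 1 by norm_num, add_smul, add_smul, one_smul]
    rw [this]
    abel
  rw [h2]

theorem cls_add_eq_zero_iff (zx zn : ι → IsLocalRing.maximalIdeal 𝓡.V) :
    cls d zx + cls d zn = 0 ↔
      polyDiv d zx + polyDiv d zn - (2 : ℤ) • polyDiv d 0 ∈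
        Divisor.principal (K := K) (F := F) := by
  have h : cls d zx + cls d zn = Pic0.mk (polyDivZ d zx + polyDivZ d zn) := rfl
  rw [h, pic0_mk_eq_zero_iff]
  have h2 : ((polyDivZ d zx + polyDivZ d zn :
      Divisor.degZero (K := K) (F := F)) : Divisor K F) =
      polyDiv d zx + polyDiv d zn - (2 : ℤ) • polyDiv d 0 := by
    push_cast
    simp only [coe_polyDivZ]
    have : (2 : ℤ) • polyDiv d 0 = polyDiv d 0 + polyDiv d 0 := by
      rw [show (2 : ℤ) = 1 + 1 by norm_num, add_smul, one_smul]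
    rw [this]
    abel
  rw [h2]

end Cls

/-- **ZADD** from COORD, ZTRI and ZNEG. -/
theorem zadd_of (hcoord : CoordStatement K F k Fk)
    (htri : ZtriStatement.{u₁, u₂, u₃, u₄, w} K F k Fk)
    (hneg : ZnegStatement.{u₁, u₂, u₃, u₄, w} K F k Fk) :
    ZaddStatement.{u₁, u₂, u₃, u₄, w} K F k Fk := by
  intro 𝓡 Qs hinj hnsp d T _ Λ zx zy zs hzx hzy hprin
  obtain ⟨hC1, hC2⟩ := hcoord 𝓡 Qs hinj hnsp d
  have hmemc : ∀ z, cls d z ∈ 𝓡.kerRed := fun z => hC2 z (polyDivZ d z) rfl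
  -- the third point `w = -(x + y)`
  have hw : ∀ τ, ∃ zw : Fin (genusFF k Fk) → IsLocalRing.maximalIdeal 𝓡.V,
      cls d zw = -(cls d (zx τ) + cls d (zy τ)) := by
    intro τ
    obtain ⟨zw, hzw, -⟩ := hC1 _ (neg_mem (add_mem (hmemc (zx τ)) (hmemc (zy τ))))
    exact ⟨zw, (exists_iff_cls d zw _).mp hzw⟩
  choose zw hzw using hw
  have h1 : ∀ i, (fun τ => ((zw τ i : IsLocalRing.maximalIdeal 𝓡.V) : 𝓡.V)) ∈ Λ := by
    refine htri 𝓡 Qs hinj hnsp d T Λ zx zy zw hzx hzy fun τ => ?_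
    rw [← cls_add_add_eq_zero_iff, hzw τ]
    abel
  refine hneg 𝓡 Qs hinj hnsp d T Λ zw zs h1 fun τ => ?_
  rw [← cls_add_eq_zero_iff, hzw τ]
  have h2 := (cls_add_sub_eq_zero_iff d (zx τ) (zy τ) (zs τ)).mpr (hprin τ)
  have h3 : cls d (zs τ) = cls d (zx τ) + cls d (zy τ) := (sub_eq_zero.mp h2).symm
  rw [h3]
  abel

section Chart

variable [IsAlgClosed k]

/-- **CHART** from the leaves. -/
theorem chart_of (hnsp : NspStatement k Fk) (hdisc : DiscStatement K F k Fk)
    (hequiv : DiscEquivStatement K F k Fk) (hcoord : CoordStatement K F k Fk)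
    (hzadd : ZaddStatement.{u₁, u₂, u₃, u₄, w} K F k Fk) :
    ChartStatement.{u₁, u₂, u₃, u₄, w} K F k Fk := by
  intro 𝓡
  haveI := 𝓡.ff1k
  haveI := 𝓡.ff1
  obtain ⟨Qs, hinj, hell⟩ := hnsp
  have hd : ∀ i, ∃ d : DiscData 𝓡 (Qs i),
      ∀ g ∈ 𝓡.I, g • ((d.D.t : d.ring) : F) = ((d.D.t : d.ring) : F) := fun i => hdisc 𝓡 (Qs i)
  choose d hdI using hd
  obtain ⟨hC1, hC2⟩ := hcoord 𝓡 Qs hinj hell d
  have hex : ∀ u : 𝓡.kerRed, ∃ z : Fin (genusFF k Fk) → IsLocalRing.maximalIdeal 𝓡.V,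
      cls d z = (u : Pic0 K F) ∧ ∀ z', cls d z' = (u : Pic0 K F) → z' = z := by
    intro u
    obtain ⟨z, hz, huniq⟩ := hC1 (u : Pic0 K F) u.2
    exact ⟨z, (exists_iff_cls d z _).mp hz, fun z' hz' => huniq z' ((exists_iff_cls d z' _).mpr hz')⟩
  choose z hz hzuniq using hex
  refine ⟨genusFF k Fk, z, ?_, ?_, ?_⟩
  · -- injective
    intro u u' h
    apply Subtype.ext
    rw [← hz u, ← hz u', h]
  · -- inertia equivariance
    intro g hg u hgu i
    -- the transformed polydisc point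
    have hpt : ∀ (j : Fin (genusFF k Fk)) (a : IsLocalRing.maximalIdeal 𝓡.V),
        ∃ a' : IsLocalRing.maximalIdeal 𝓡.V,
          (((a' : IsLocalRing.maximalIdeal 𝓡.V) : 𝓡.V) : K) =
            SemilinearAut.baseAut g (((a : IsLocalRing.maximalIdeal 𝓡.V) : 𝓡.V) : K) ∧
          g • (d j).pt a = (d j).pt a' := by
      intro j a
      obtain ⟨h, h', hpt⟩ := hequiv 𝓡 (Qs j) (d j) (hdI j) g hg a
      exact ⟨⟨⟨_, h⟩, h'⟩, rfl, hpt⟩
    choose σ hσ hσpt using hpt
    have hσ0 : ∀ j, σ j 0 = 0 := by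
      intro j
      apply Subtype.ext
      apply Subtype.ext
      rw [hσ j 0]
      simp
    have hsmul : ∀ z₀ : Fin (genusFF k Fk) → IsLocalRing.maximalIdeal 𝓡.V,
        g • polyDiv d z₀ = polyDiv d (fun j => σ j (z₀ j)) := by
      intro z₀
      unfold polyDiv
      rw [Finset.smul_sum]
      refine Finset.sum_congr rfl fun j _ => ?_
      rw [SemilinearAut.smul_single, hσpt]
    have hcls : cls d (fun j => σ j (z u j)) = g • (u : Pic0 K F) := by
      rw [← hz u]
      show _ = g • Pic0.mk (polyDivZ d (z u))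
      rw [SemilinearAut.pic0_smul_mk]
      unfold cls
      congr 1
      apply Subtype.ext
      rw [SemilinearAut.coe_degZeroSMulHom, coe_polyDivZ, coe_polyDivZ, smul_sub, hsmul, hsmul]
      congr 2
      funext j
      exact (hσ0 j).symm
    have := hzuniq ⟨g • (u : Pic0 K F), hgu⟩ _ hcls
    rw [← this]
    exact hσ i (z u i)
  · -- addition
    intro T _ Λ a b ha hb
    refine hzadd 𝓡 Qs hinj hell d T Λ (fun τ => z (a τ)) (fun τ => z (b τ))
      (fun τ => z (a τ + b τ)) ha hb fun τ => ?_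
    rw [← cls_add_sub_eq_zero_iff, hz, hz, hz]
    simp

end Chart

end Fermat.Agent.A3.H799
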