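import Fermat.Agent.A3.H799.Root
import Mathlib.LinearAlgebra.Matrix.NonsingularInverse
import Mathlib.LinearAlgebra.Matrix.Determinant.Basic
import Mathlib.RingTheory.LocalRing.ResidueField.Basic

/-!
# A3 / LOCAL — linear systems with parameters  (helper799)

`A` local, `T` finite, `Λ ≤ (T → A)`.  Given finitely many disc algebras `𝒪 i`, `Λ`-points
`ys i r` (`r < s i`) of the `i`-th disc, and disc functions `f₀ i`, `f j i` (as many unknowns `j`
as conditions `(i, r)`), such that the matrix of the first `s i` Taylor coefficients at `0` of the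
`f j i` is invertible, there are `v j ∈ Λ` such that for every parameter value `τ` the function
`f₀ i + Σ_j v_j(τ) f j i` vanishes on the divisor `Σ_r [ys i r (τ)]` of the `i`-th disc
(`exists_comb`).  This is "Riemann–Roch with parameters": Cramer's rule over `Λ`.
-/

set_option autoImplicit false

namespace Fermat.Agent.A3.H799

open Polynomial

section Congr

variable {A : Type*} [CommRing A] [IsLocalRing A] {𝒪 : Type*} [CommRing 𝒪] [Algebra A 𝒪]

theorem map_residue_nodal (l : List (IsLocalRing.maximalIdeal A)) :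
    (DiscAlg.nodal l).map (IsLocalRing.residue A) = X ^ l.length := by
  induction l with
  | nil => simp
  | cons a l ih =>
    rw [DiscAlg.nodal_cons, Polynomial.map_mul, ih, Polynomial.map_sub, Polynomial.map_X,
      Polynomial.map_C, (IsLocalRing.residue_eq_zero_iff _).mpr a.2, map_zero, sub_zero,
      List.length_cons, pow_succ, mul_comm]

theorem coeff_nodal_mul_mem (l : List (IsLocalRing.maximalIdeal A)) (q : A[X]) (r : ℕ)
    (hr : r < l.length) : (DiscAlg.nodal l * q).coeff r ∈ IsLocalRing.maximalIdeal A := by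
  rw [← IsLocalRing.residue_eq_zero_iff, ← Polynomial.coeff_map, Polynomial.map_mul,
    map_residue_nodal, Polynomial.coeff_X_pow_mul']
  simp [Nat.not_le.mpr hr]

theorem nodal_replicate_zero (n : ℕ) :
    DiscAlg.nodal (List.replicate n (0 : IsLocalRing.maximalIdeal A)) = X ^ n := by
  induction n with
  | zero => simp
  | succ n ih => rw [List.replicate_succ, DiscAlg.nodal_cons, ih]; simp [pow_succ, mul_comm]

/-- Two interpolation polynomials of the same disc function have the same low coefficients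
modulo the maximal ideal. -/
theorem DiscAlg.coeff_sub_mem (D : DiscAlg A 𝒪) (l l' : List (IsLocalRing.maximalIdeal A))
    (f : 𝒪) (p p' : A[X]) (h h' : 𝒪)
    (hp : f = aeval D.t p + aeval D.t (DiscAlg.nodal l) * h)
    (hp' : f = aeval D.t p' + aeval D.t (DiscAlg.nodal l') * h')
    (r : ℕ) (hr : r < l.length) (hr' : r < l'.length) :
    p.coeff r - p'.coeff r ∈ IsLocalRing.maximalIdeal A := by
  set Z : List (IsLocalRing.maximalIdeal A) := List.replicate (r + 1) 0 with hZ
  obtain ⟨q, g, hq⟩ := D.exists_interp Z h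
  obtain ⟨q', g', hq'⟩ := D.exists_interp Z h'
  set Δ : A[X] := p - p' + DiscAlg.nodal l * q - DiscAlg.nodal l' * q' with hΔ
  have h1 : aeval D.t Δ = aeval D.t (DiscAlg.nodal Z) *
      (aeval D.t (DiscAlg.nodal l') * g' - aeval D.t (DiscAlg.nodal l) * g) := by
    have e1 : aeval D.t p - aeval D.t p' =
        aeval D.t (DiscAlg.nodal l') * h' - aeval D.t (DiscAlg.nodal l) * h := by
      have := hp.symm.trans hp'
      linear_combination this
    rw [hΔ]
    simp only [map_add, map_sub, map_mul]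
    rw [hq, hq'] at e1
    linear_combination e1
  obtain ⟨w, hw⟩ := D.nodal_dvd_of_aeval Z Δ _ h1
  have h2 : Δ.coeff r = 0 := by
    rw [hw, hZ, nodal_replicate_zero, Polynomial.coeff_X_pow_mul']
    simp
  have h3 : p.coeff r - p'.coeff r =
      (DiscAlg.nodal l' * q').coeff r - (DiscAlg.nodal l * q).coeff r := by
    have : Δ.coeff r = p.coeff r - p'.coeff r + (DiscAlg.nodal l * q).coeff r
        - (DiscAlg.nodal l' * q').coeff r := by
      rw [hΔ]; simp
    rw [this] at h2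
    linear_combination h2
  rw [h3]
  exact (IsLocalRing.maximalIdeal A).sub_mem (coeff_nodal_mul_mem l' q' r hr')
    (coeff_nodal_mul_mem l q r hr)

end Congr

section Comb

variable {A : Type*} [CommRing A] [IsLocalRing A] {T : Type*} [Finite T]

omit [Finite T] in
theorem natDegree_nodalΛ [Nonempty T] (Λ : Subalgebra A (T → A)) (ys : List (radIdeal Λ)) :
    (nodalΛ Λ ys).natDegree = ys.length := by
  have hnt : Nontrivial Λ := by
    obtain ⟨τ⟩ := ‹Nonempty T›
    exact RingHom.domain_nontrivial (evAt Λ τ : Λ →+* A)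
  induction ys with
  | nil => simp [nodalΛ]
  | cons a l ih =>
    have h1 : nodalΛ Λ (a :: l) = (X - C (a : Λ)) * nodalΛ Λ l := by simp [nodalΛ]
    rw [h1, ((monic_X_sub_C _).natDegree_mul (nodalΛ_monic Λ l)), ih, natDegree_X_sub_C]
    simp [add_comm]

/-- Auxiliary: the list of all values of the `Λ`-points `ys` over a list of parameters. -/
private noncomputable def allVals (Λ : Subalgebra A (T → A)) (ys : List (radIdeal Λ))
    (ts : List T) : List (IsLocalRing.maximalIdeal A) :=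
  ts.flatMap fun τ => ys.map (ptAt Λ τ)

omit [Finite T] in
private theorem nodal_allVals_dvd (Λ : Subalgebra A (T → A)) (ys : List (radIdeal Λ))
    (ts : List T) (τ : T) (hτ : τ ∈ ts) :
    ∃ R : A[X], DiscAlg.nodal (allVals Λ ys ts) = DiscAlg.nodal (ys.map (ptAt Λ τ)) * R := by
  induction ts with
  | nil => simp at hτ
  | cons σ ts ih =>
    have hcons : allVals Λ ys (σ :: ts) = ys.map (ptAt Λ σ) ++ allVals Λ ys ts := by
      simp [allVals]
    rw [hcons, DiscAlg.nodal_append]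
    rcases List.mem_cons.mp hτ with h | h
    · subst h
      exact ⟨_, rfl⟩
    · obtain ⟨R, hR⟩ := ih h
      exact ⟨DiscAlg.nodal (ys.map (ptAt Λ σ)) * R, by rw [hR]; ring⟩

omit [Finite T] in
/-- One disc, one function: reduction of an interpolation polynomial modulo the moving nodes is
again an interpolation polynomial, pointwise. -/
private theorem interp_mod (Λ : Subalgebra A (T → A)) {𝒪 : Type*} [CommRing 𝒪] [Algebra A 𝒪]
    (D : DiscAlg A 𝒪) (ys : List (radIdeal Λ)) (ts : List T) (τ : T) (hτ : τ ∈ ts)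
    (f : 𝒪) (p : A[X]) (h : 𝒪)
    (hp : f = aeval D.t p + aeval D.t (DiscAlg.nodal (allVals Λ ys ts)) * h) :
    ∃ h' : 𝒪, f = aeval D.t ((p.map (algebraMap A Λ) %ₘ nodalΛ Λ ys).map (evAt Λ τ : Λ →+* A)) +
      aeval D.t (DiscAlg.nodal (ys.map (ptAt Λ τ))) * h' := by
  obtain ⟨R, hR⟩ := nodal_allVals_dvd Λ ys ts τ hτ
  have hcomp : ((evAt Λ τ : Λ →+* A).comp (algebraMap A Λ)) = RingHom.id A := by
    ext a; simp
  have h1 : (p.map (algebraMap A Λ) %ₘ nodalΛ Λ ys).map (evAt Λ τ : Λ →+* A) =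
      p %ₘ DiscAlg.nodal (ys.map (ptAt Λ τ)) := by
    rw [Polynomial.map_modByMonic _ (nodalΛ_monic Λ ys), map_nodalΛ, Polynomial.map_map, hcomp,
      Polynomial.map_id]
  refine ⟨aeval D.t (p /ₘ DiscAlg.nodal (ys.map (ptAt Λ τ))) + aeval D.t R * h, ?_⟩
  rw [h1, hp, hR]
  have h2 := Polynomial.modByMonic_add_div p (DiscAlg.nodal (ys.map (ptAt Λ τ)))
  have h3 : aeval D.t p = aeval D.t (p %ₘ DiscAlg.nodal (ys.map (ptAt Λ τ))) +
      aeval D.t (DiscAlg.nodal (ys.map (ptAt Λ τ))) *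
        aeval D.t (p /ₘ DiscAlg.nodal (ys.map (ptAt Λ τ))) := by
    conv_lhs => rw [← h2]
    simp
  rw [h3, map_mul]
  ring

/-- **Riemann–Roch with parameters (Cramer over `Λ`).**  See the module docstring. -/
theorem exists_comb {ι : Type*} [Fintype ι] {𝒪 : ι → Type*}
    [∀ i, CommRing (𝒪 i)] [∀ i, Algebra A (𝒪 i)]
    (Λ : Subalgebra A (T → A)) (D : ∀ i, DiscAlg A (𝒪 i)) (s : ι → ℕ)
    (ys : ∀ i, Fin (s i) → radIdeal Λ)
    (f₀ : ∀ i, 𝒪 i) (f : (Σ i, Fin (s i)) → ∀ i, 𝒪 i)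
    (P₀ : ∀ i, A[X]) (H₀ : ∀ i, 𝒪 i)
    (hf₀ : ∀ i, f₀ i = aeval (D i).t (P₀ i) + (D i).t ^ s i * H₀ i)
    (P : (Σ i, Fin (s i)) → ∀ i, A[X]) (H : (Σ i, Fin (s i)) → ∀ i, 𝒪 i)
    (hf : ∀ j i, f j i = aeval (D i).t (P j i) + (D i).t ^ s i * H j i)
    (hdet : ∀ [DecidableEq (Σ i, Fin (s i))],
      IsUnit (Matrix.of fun (c j : Σ i, Fin (s i)) => (P j c.1).coeff (c.2 : ℕ)).det)
    (h₀ : ∀ i (r : Fin (s i)), (P₀ i).coeff (r : ℕ) ∈ IsLocalRing.maximalIdeal A) :
    ∃ v : (Σ i, Fin (s i)) → Λ, (∀ j, v j ∈ radIdeal Λ) ∧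
      ∀ τ i, ∃ h : 𝒪 i, f₀ i + ∑ j, ((v j : Λ) : T → A) τ • f j i =
        aeval (D i).t (DiscAlg.nodal ((List.ofFn (ys i)).map (ptAt Λ τ))) * h := by
  classical
  rcases isEmpty_or_nonempty T with hT | hT
  · exact ⟨fun _ => 0, fun j => (radIdeal Λ).zero_mem, fun τ => (hT.false τ).elim⟩
  have hnt : Nontrivial Λ := by
    obtain ⟨τ⟩ := hT
    exact RingHom.domain_nontrivial (evAt Λ τ : Λ →+* A)
  have : Fintype T := Fintype.ofFinite T
  set ts : List T := (Finset.univ : Finset T).toList with hts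
  have hmem : ∀ τ, τ ∈ ts := fun τ => by simp [hts]
  have ht0 : ∀ i, (D i).t ^ s i =
      aeval (D i).t (DiscAlg.nodal (List.replicate (s i) (0 : IsLocalRing.maximalIdeal A))) := by
    intro i; rw [nodal_replicate_zero]; simp
  -- interpolation on all the nodes
  choose p₀ g₀ hp₀ using fun (i : ι) =>
    (D i).exists_interp (allVals Λ (List.ofFn (ys i)) ts) (f₀ i)
  choose p g hp using fun (j : Σ i, Fin (s i)) (i : ι) =>
    (D i).exists_interp (allVals Λ (List.ofFn (ys i)) ts) (f j i)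
  -- the polynomials over Λ
  set G : ∀ i, Λ[X] := fun i => nodalΛ Λ (List.ofFn (ys i)) with hG
  have hGm : ∀ i, (G i).Monic := fun i => nodalΛ_monic Λ _
  have hGdeg : ∀ i, (G i).degree = (s i : ℕ) := by
    intro i
    rw [degree_eq_natDegree (hGm i).ne_zero, hG, natDegree_nodalΛ]
    simp
  set B₀ : ∀ i, Λ[X] := fun i => (p₀ i).map (algebraMap A Λ) %ₘ G i with hB₀
  set B : (Σ i, Fin (s i)) → ∀ i, Λ[X] := fun j i => (p j i).map (algebraMap A Λ) %ₘ G i with hB
  set M : Matrix (Σ i, Fin (s i)) (Σ i, Fin (s i)) Λ :=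
    Matrix.of fun c j => (B j c.1).coeff (c.2 : ℕ) with hM
  set b : (Σ i, Fin (s i)) → Λ := fun c => (B₀ c.1).coeff (c.2 : ℕ) with hb
  -- congruences modulo the maximal ideal
  have hMτ : ∀ τ c j, evAt Λ τ (M c j) - (P j c.1).coeff (c.2 : ℕ) ∈
      IsLocalRing.maximalIdeal A := by
    intro τ c j
    obtain ⟨h', hh'⟩ := interp_mod Λ (D c.1) (List.ofFn (ys c.1)) ts τ (hmem τ) (f j c.1)
      (p j c.1) (g j c.1) (hp j c.1)
    have hh2 : f j c.1 = aeval (D c.1).t (P j c.1) +
        aeval (D c.1).t (DiscAlg.nodal (List.replicate (s c.1) (0 : IsLocalRing.maximalIdeal A))) * H j c.1 := by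
      rw [← ht0]; exact hf j c.1
    have := (D c.1).coeff_sub_mem _ _ (f j c.1) _ (P j c.1) h' (H j c.1) hh' hh2 (c.2 : ℕ)
      (by simp) (by simp)
    simpa [hM, hB, Polynomial.coeff_map] using this
  have hbτ : ∀ τ c, evAt Λ τ (b c) ∈ IsLocalRing.maximalIdeal A := by
    intro τ c
    obtain ⟨h', hh'⟩ := interp_mod Λ (D c.1) (List.ofFn (ys c.1)) ts τ (hmem τ) (f₀ c.1)
      (p₀ c.1) (g₀ c.1) (hp₀ c.1)
    have hh2 : f₀ c.1 = aeval (D c.1).t (P₀ c.1) +
        aeval (D c.1).t (DiscAlg.nodal (List.replicate (s c.1) (0 : IsLocalRing.maximalIdeal A))) * H₀ c.1 := by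
      rw [← ht0]; exact hf₀ c.1
    have := (D c.1).coeff_sub_mem _ _ (f₀ c.1) _ (P₀ c.1) h' (H₀ c.1) hh' hh2 (c.2 : ℕ)
      (by simp) (by simp)
    have h2 := (IsLocalRing.maximalIdeal A).add_mem this (h₀ c.1 c.2)
    simpa [hb, hB₀, Polynomial.coeff_map] using h2
  -- the determinant is a unit
  have hdetM : IsUnit M.det := by
    have hpt : ∀ τ, IsUnit (((M.det : Λ) : T → A) τ) := by
      intro τ
      refine (IsLocalRing.residue_ne_zero_iff_isUnit (R := A) _).mp ?_
      set φ : Λ →+* IsLocalRing.ResidueField A :=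
        (IsLocalRing.residue A).comp (evAt Λ τ : Λ →+* A) with hφ
      have h1 : IsLocalRing.residue A (((M.det : Λ) : T → A) τ) = φ M.det := rfl
      rw [h1, RingHom.map_det]
      have h2 : φ.mapMatrix M = (IsLocalRing.residue A).mapMatrix
          (Matrix.of fun (c j : Σ i, Fin (s i)) => (P j c.1).coeff (c.2 : ℕ)) := by
        ext c j
        simp only [RingHom.mapMatrix_apply, Matrix.map_apply, Matrix.of_apply, hφ,
          RingHom.comp_apply]
        have := hMτ τ c j
        rw [← IsLocalRing.residue_eq_zero_iff, map_sub, sub_eq_zero] at this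
        exact this
      rw [h2, ← RingHom.map_det]
      exact (IsLocalRing.residue_ne_zero_iff_isUnit (R := A) _).mpr hdet
    obtain ⟨w, hw, hfw⟩ := exists_inv_mem Λ M.det.2 hpt
    exact IsUnit.of_mul_eq_one (⟨w, hw⟩ : Λ) (Subtype.ext hfw)
  -- the solution
  set v : (Σ i, Fin (s i)) → Λ := fun j => -(M⁻¹.mulVec b) j with hv
  have hMv : M.mulVec v = -b := by
    have h1 : v = -(M⁻¹.mulVec b) := rfl
    rw [h1, Matrix.mulVec_neg, Matrix.mulVec_mulVec, Matrix.mul_nonsing_inv M hdetM,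
      Matrix.one_mulVec]
  have hbI : ∀ c, b c ∈ radIdeal Λ := fun c τ => hbτ τ c
  have hvI : ∀ j, v j ∈ radIdeal Λ := by
    intro j
    rw [hv]
    refine (radIdeal Λ).neg_mem ?_
    simp only [Matrix.mulVec, dotProduct]
    exact (radIdeal Λ).sum_mem fun c _ => (radIdeal Λ).mul_mem_left _ (hbI c)
  refine ⟨v, hvI, fun τ i => ?_⟩
  -- divisibility in Λ[X]
  set Ψ : Λ[X] := (p₀ i).map (algebraMap A Λ) + ∑ j, C (v j) * (p j i).map (algebraMap A Λ)
    with hΨ
  have hΨmod : Ψ %ₘ G i = B₀ i + ∑ j, v j • B j i := by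
    rw [hΨ, Polynomial.add_modByMonic]
    congr 1
    have : ∀ q : Λ[X], q %ₘ G i = Polynomial.modByMonicHom (G i) q := fun q => rfl
    rw [this, map_sum]
    refine Finset.sum_congr rfl fun j _ => ?_
    rw [Polynomial.C_mul', map_smul]
    rfl
  have hdeglt : ∀ q : Λ[X], ∀ r : ℕ, s i ≤ r → (q %ₘ G i).coeff r = 0 := by
    intro q r hr
    refine Polynomial.coeff_eq_zero_of_degree_lt ?_
    refine lt_of_lt_of_le (Polynomial.degree_modByMonic_lt q (hGm i)) ?_
    rw [hGdeg i]
    exact_mod_cast hr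
  have hΨ0 : Ψ %ₘ G i = 0 := by
    ext r
    rw [hΨmod, Polynomial.coeff_zero, Polynomial.coeff_add, Polynomial.finsetSum_coeff]
    simp only [Polynomial.coeff_smul, smul_eq_mul]
    by_cases hr : r < s i
    · have h1 := congrFun hMv ⟨i, ⟨r, hr⟩⟩
      simp only [Matrix.mulVec, dotProduct, hM, Matrix.of_apply, Pi.neg_apply, hb] at h1
      have h2 : ∑ j, v j * (B j i).coeff r = ∑ j, (B j i).coeff r * v j :=
        Finset.sum_congr rfl fun j _ => mul_comm _ _
      rw [h2, h1]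
      exact add_neg_cancel _
    · push Not at hr
      rw [hB₀, hdeglt _ r hr]
      have : ∀ j, (B j i).coeff r = 0 := fun j => hdeglt _ r hr
      simp [this]
  obtain ⟨Q, hQ⟩ := (Polynomial.modByMonic_eq_zero_iff_dvd (hGm i)).mp hΨ0
  -- specialise at τ
  have hcomp : ((evAt Λ τ : Λ →+* A).comp (algebraMap A Λ)) = RingHom.id A := by
    ext a; simp
  have hΨτ : Ψ.map (evAt Λ τ : Λ →+* A) = p₀ i + ∑ j, C (((v j : Λ) : T → A) τ) * p j i := by
    rw [hΨ, Polynomial.map_add, Polynomial.map_sum, Polynomial.map_map, hcomp, Polynomial.map_id]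
    congr 1
    refine Finset.sum_congr rfl fun j _ => ?_
    rw [Polynomial.map_mul, Polynomial.map_C, Polynomial.map_map, hcomp, Polynomial.map_id]
    rfl
  have hQτ : p₀ i + ∑ j, C (((v j : Λ) : T → A) τ) * p j i =
      DiscAlg.nodal ((List.ofFn (ys i)).map (ptAt Λ τ)) * Q.map (evAt Λ τ : Λ →+* A) := by
    rw [← hΨτ, hQ, Polynomial.map_mul, hG, map_nodalΛ]
  obtain ⟨R, hR⟩ := nodal_allVals_dvd Λ (List.ofFn (ys i)) ts τ (hmem τ)
  refine ⟨aeval (D i).t (Q.map (evAt Λ τ : Λ →+* A)) +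
    aeval (D i).t R * (g₀ i + ∑ j, ((v j : Λ) : T → A) τ • g j i), ?_⟩
  have h1 : f₀ i + ∑ j, ((v j : Λ) : T → A) τ • f j i =
      aeval (D i).t (p₀ i + ∑ j, C (((v j : Λ) : T → A) τ) * p j i) +
        aeval (D i).t (DiscAlg.nodal (allVals Λ (List.ofFn (ys i)) ts)) *
          (g₀ i + ∑ j, ((v j : Λ) : T → A) τ • g j i) := by
    rw [map_add, map_sum, mul_add, Finset.mul_sum]
    have : ∀ j, ((v j : Λ) : T → A) τ • f j i =
        aeval (D i).t (C (((v j : Λ) : T → A) τ) * p j i) +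
          aeval (D i).t (DiscAlg.nodal (allVals Λ (List.ofFn (ys i)) ts)) *
            (((v j : Λ) : T → A) τ • g j i) := by
      intro j
      conv_lhs => rw [hp j i]
      rw [map_mul, aeval_C, Algebra.smul_def, Algebra.smul_def]
      ring
    rw [Finset.sum_congr rfl fun j _ => this j, Finset.sum_add_distrib]
    conv_lhs => rw [hp₀ i]
    ring
  rw [h1, hQτ, hR, map_mul, map_mul]
  ring

end Comb

end Fermat.Agent.A3.H799
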