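import Mathlib.RingTheory.IntegralClosure.IsIntegralClosure.Basic
import Mathlib.RingTheory.LocalRing.MaximalIdeal.Basic
import Mathlib.RingTheory.Nakayama
import Mathlib.RingTheory.Polynomial.Basic
import Mathlib.Algebra.Polynomial.Taylor
import Mathlib.RingTheory.Finiteness.Basic
import Mathlib.RingTheory.Adjoin.FG

/-!
# A3 / LOCAL — rings of "algebraic families" on a finite parameter set  (helper799)

Cell A3 (S19/S32), piece LOCAL of the "coordinates, not schemes" route
(`coord/A3-LOCAL-helper799.md`).  Mathlib only.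

`A` is a commutative ring (in the application the valuation ring of `ℚ̄` above `ℓ`), `T` a finite
set (pairs of torsion points in a residue disc), `Λ` an `A`-subalgebra of the ring `T → A` of all
`A`-valued functions on `T` (in the application `Λ = A[z_i(c), z_i(c')]`, the polynomial functions in
the disc coordinates).  Because `Λ` is a subring of a finite product of copies of `A`, every
statement "over `Λ`" can be checked pointwise; this file proves that `Λ` is nevertheless closed
under all the operations used by Riemann–Roch with parameters: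

* `inv_mem`        : pointwise units of `Λ` are units of `Λ`;
* `hensel_mem`     : a function `y : T → 𝔪` that is pointwise a simple root of a polynomial with
                     coefficients in `Λ` lies in `Λ`  (Hensel without completeness);
* `exists_conductor` : if `Λ` separates the points of `T` then `d • (T → A) ⊆ Λ` for some `d ≠ 0`;
* `limit_mem`      : `Λ` is closed under `x`-adic limits, `x ∈ Λ` pointwise topologically nilpotent.
-/

set_option autoImplicit false

namespace Fermat.Agent.A3.H799

open Polynomial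

section Units

variable {A : Type*} [CommRing A] {T : Type*} [Finite T]

/-- The ring of all functions on a finite set is integral over any subalgebra. -/
theorem isIntegral_fun (Λ : Subalgebra A (T → A)) (f : T → A) : IsIntegral Λ f := by
  have h : IsIntegral A f := Algebra.IsIntegral.isIntegral f
  exact h.tower_top

/-- **Pointwise units are units.**  If `f ∈ Λ` is a unit at every point of the finite set `T`,
its pointwise inverse lies in `Λ`. -/
theorem inv_mem (Λ : Subalgebra A (T → A)) {f g : T → A} (hf : f ∈ Λ) (hfg : f * g = 1) :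
    g ∈ Λ := by
  have hint : (algebraMap Λ (T → A)).IsIntegral := fun x => isIntegral_fun Λ x
  have hinj : Function.Injective (algebraMap Λ (T → A)) := Subtype.val_injective
  have := hint.isLocalHom hinj
  have hu : IsUnit (algebraMap Λ (T → A) ⟨f, hf⟩) :=
    IsUnit.of_mul_eq_one (a := (algebraMap Λ (T → A) ⟨f, hf⟩)) g hfg
  obtain ⟨u, hu'⟩ := (isUnit_of_map_unit (algebraMap Λ (T → A)) _ hu)
  have h1 : f * ((u⁻¹ : Λˣ) : Λ) = 1 := by
    have := congrArg (algebraMap Λ (T → A)) (u.mul_inv)
    rw [map_mul, map_one, hu'] at this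
    exact this
  have : g = ((u⁻¹ : Λˣ) : Λ) := by
    calc g = g * (f * ((u⁻¹ : Λˣ) : Λ)) := by rw [h1, mul_one]
      _ = (f * g) * ((u⁻¹ : Λˣ) : Λ) := by ring
      _ = ((u⁻¹ : Λˣ) : Λ) := by rw [hfg, one_mul]
  rw [this]
  exact Subtype.mem _

/-- Version of `inv_mem` with a pointwise hypothesis. -/
theorem exists_inv_mem (Λ : Subalgebra A (T → A)) {f : T → A} (hf : f ∈ Λ)
    (hu : ∀ t, IsUnit (f t)) : ∃ g ∈ Λ, f * g = 1 := by
  choose u hu' using hu
  refine ⟨fun t => ((u t)⁻¹ : Aˣ), ?_, ?_⟩
  · refine inv_mem Λ hf ?_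
    funext t
    simp [← hu']
  · funext t
    simp [← hu']

end Units

section Hensel

variable {A : Type*} [CommRing A] [IsLocalRing A] {T : Type*} [Finite T]

/-- The ideal of `Λ` of functions with values in the maximal ideal of `A`. -/
def radIdeal (Λ : Subalgebra A (T → A)) : Ideal Λ where
  carrier := {f | ∀ t, (f : T → A) t ∈ IsLocalRing.maximalIdeal A}
  add_mem' := fun {f g} hf hg t => by
    simpa using (IsLocalRing.maximalIdeal A).add_mem (hf t) (hg t)
  zero_mem' := fun t => by simp
  smul_mem' := fun c f hf t => by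
    simpa using (IsLocalRing.maximalIdeal A).mul_mem_left ((c : T → A) t) (hf t)

omit [Finite T] in
theorem mem_radIdeal {Λ : Subalgebra A (T → A)} {f : Λ} :
    f ∈ radIdeal Λ ↔ ∀ t, (f : T → A) t ∈ IsLocalRing.maximalIdeal A := Iff.rfl

/-- `radIdeal Λ` is contained in the Jacobson radical of `Λ`. -/
theorem radIdeal_le_jacobson (Λ : Subalgebra A (T → A)) :
    radIdeal Λ ≤ Ideal.jacobson (⊥ : Ideal Λ) := by
  intro x hx
  rw [Ideal.mem_jacobson_bot]
  intro y
  have hu : ∀ t, IsUnit (((x * y + 1 : Λ) : T → A) t) := by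
    intro t
    have h1 : ((x * y + 1 : Λ) : T → A) t = (x : T → A) t * (y : T → A) t + 1 := by simp
    rw [h1]
    have hm : (x : T → A) t * (y : T → A) t ∈ IsLocalRing.maximalIdeal A :=
      (IsLocalRing.maximalIdeal A).mul_mem_right _ (hx t)
    by_contra hnu
    have h2 : (x : T → A) t * (y : T → A) t + 1 ∈ IsLocalRing.maximalIdeal A :=
      (IsLocalRing.mem_maximalIdeal _).mpr hnu
    have h3 : (1 : A) ∈ IsLocalRing.maximalIdeal A := by
      have := (IsLocalRing.maximalIdeal A).sub_mem h2 hm
      simpa using this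
    exact (IsLocalRing.maximalIdeal.isMaximal A).ne_top
      ((Ideal.eq_top_iff_one _).mpr h3)
  obtain ⟨g, hg, hfg⟩ := exists_inv_mem Λ (x * y + 1).2 hu
  exact IsUnit.of_mul_eq_one (⟨g, hg⟩ : Λ) (Subtype.ext hfg)

/-- **Hensel without completeness.**  Let `Λ` be an `A`-algebra of functions on the finite set `T`
(`A` local).  If `y : T → 𝔪_A` is a root of `Φ ∈ Λ[X]` and `Φ'(y)` is a unit at every point,
then `y ∈ Λ`. -/
theorem hensel_mem (Λ : Subalgebra A (T → A)) (Φ : Λ[X]) (y : T → A)
    (hy : ∀ t, y t ∈ IsLocalRing.maximalIdeal A)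
    (hroot : aeval y Φ = 0)
    (hder : ∀ t, IsUnit ((aeval y (derivative Φ)) t)) : y ∈ Λ := by
  classical
  -- notation
  set Ψ : Λ[X] := divX Φ with hΨ
  set c : Λ := Φ.coeff 0 with hc
  have hΦ : Φ = Ψ * X + C c := (divX_mul_X_add Φ).symm
  -- the bigger ring Λ' = Λ[y]
  let Λ' : Subalgebra Λ (T → A) := Algebra.adjoin Λ {y}
  have hΛ' : Λ' = (aeval y : Λ[X] →ₐ[Λ] (T → A)).range :=
    Algebra.adjoin_singleton_eq_range_aeval Λ y
  have hyΛ' : y ∈ Λ' := Algebra.subset_adjoin (Set.mem_singleton y)
  have hΨy : aeval y Ψ ∈ Λ' := by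
    rw [hΛ']; exact ⟨Ψ, rfl⟩
  -- the relation Ψ(y) * y = - c
  have hrel : aeval y Ψ * y + algebraMap Λ (T → A) c = 0 := by
    have := hroot
    rw [hΦ] at this
    simpa using this
  -- Ψ(y) is a pointwise unit
  have hder' : aeval y (derivative Φ) = aeval y (derivative Ψ) * y + aeval y Ψ := by
    conv_lhs => rw [hΦ]
    simp [derivative_mul]
  have hunit : ∀ t, IsUnit ((aeval y Ψ) t) := by
    intro t
    have h1 := hder t
    rw [hder'] at h1
    have hm : (aeval y (derivative Ψ) * y) t ∈ IsLocalRing.maximalIdeal A := by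
      simpa using (IsLocalRing.maximalIdeal A).mul_mem_left _ (hy t)
    by_contra hnu
    have h2 : (aeval y Ψ) t ∈ IsLocalRing.maximalIdeal A :=
      (IsLocalRing.mem_maximalIdeal _).mpr hnu
    have h3 := (IsLocalRing.maximalIdeal A).add_mem hm h2
    exact (IsLocalRing.mem_maximalIdeal _).mp h3 (by simpa using h1)
  -- its inverse lies in Λ'
  obtain ⟨w, hw, hww⟩ := exists_inv_mem (Λ'.restrictScalars A) (f := aeval y Ψ) hΨy hunit
  have hw' : w ∈ Λ' := hw
  -- y = - w * c
  have hyw : y = -(w * algebraMap Λ (T → A) c) := by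
    have h1 : aeval y Ψ * y = -algebraMap Λ (T → A) c := eq_neg_of_add_eq_zero_left hrel
    calc y = (aeval y Ψ * w) * y := by rw [hww, one_mul]
      _ = w * (aeval y Ψ * y) := by ring
      _ = -(w * algebraMap Λ (T → A) c) := by rw [h1]; ring
  -- c lies in the radical ideal
  have hcI : c ∈ radIdeal Λ := by
    intro t
    have h1 : (algebraMap Λ (T → A) c) t = -((aeval y Ψ) t * y t) := by
      have := congrFun hrel t
      simp only [Pi.add_apply, Pi.mul_apply, Pi.zero_apply] at this
      exact eq_neg_of_add_eq_zero_right this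
    have h2 : ((c : Λ) : T → A) t = (algebraMap Λ (T → A) c) t := rfl
    rw [h2, h1]
    exact (IsLocalRing.maximalIdeal A).neg_mem ((IsLocalRing.maximalIdeal A).mul_mem_left _ (hy t))
  -- Nakayama
  have hfg : (Subalgebra.toSubmodule Λ').FG :=
    (isIntegral_fun Λ y).fg_adjoin_singleton
  have hle : Subalgebra.toSubmodule Λ' ≤
      (Subalgebra.toSubmodule (⊥ : Subalgebra Λ (T → A))) ⊔
        (radIdeal Λ) • (Subalgebra.toSubmodule Λ') := by
    intro z hz
    have hz' : z ∈ Λ' := hz
    rw [hΛ'] at hz'
    obtain ⟨p, hpz⟩ := hz'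
    have hpz' : aeval y p = z := hpz
    have hp : p = divX p * X + C (p.coeff 0) := (divX_mul_X_add p).symm
    have hpy : aeval y p = algebraMap Λ (T → A) (p.coeff 0) +
        c • (-(w * aeval y (divX p))) := by
      conv_lhs => rw [hp]
      simp only [map_add, map_mul, aeval_X, aeval_C]
      rw [Algebra.smul_def]
      have hyw' : aeval y (divX p) * y =
          aeval y (divX p) * (-(w * algebraMap Λ (T → A) c)) := by rw [← hyw]
      rw [hyw']
      ring
    rw [← hpz', hpy]
    refine Submodule.add_mem_sup ?_ ?_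
    · exact Subalgebra.algebraMap_mem _ _
    · refine Submodule.smul_mem_smul hcI ?_
      refine Subalgebra.neg_mem _ (Subalgebra.mul_mem _ hw' ?_)
      rw [hΛ']; exact ⟨_, rfl⟩
  have hfin := Submodule.le_of_le_smul_of_le_jacobson_bot hfg (radIdeal_le_jacobson Λ) hle
  have hy1 : y ∈ Subalgebra.toSubmodule (⊥ : Subalgebra Λ (T → A)) := hfin hyΛ'
  obtain ⟨l, hl⟩ := Algebra.mem_bot.mp hy1
  rw [← hl]
  exact l.2

end Hensel

end Fermat.Agent.A3.H799
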