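import Fermat.Agent.A3.H799.LocalSpec2
import Fermat.Agent.A3.H799.DiscLemmas

/-!
# A3 / LOCAL — ZGEN from GEO and DET  (helper799)

`zgen_of : GeoStatement → DetStatement → ZgenStatement` is one application of the abstract LOCAL
theorem `local_mem`; `ZtriStatement` (`s = 2`) and `ZnegStatement` (`s = 1`) are special cases.
-/

set_option autoImplicit false

noncomputable section

open AlgebraicCurve Fermat.Agent.Lib.RR Polynomial

namespace Fermat.Agent.A3.H799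

universe u₁ u₂ u₃ u₄ w

variable {K : Type u₁} {F : Type u₂} {k : Type u₃} {Fk : Type u₄}
  [Field K] [Field F] [Algebra K F] [Field k] [Field Fk] [Algebra k Fk]

/-- Constants of `V` as integral functions. -/
def GoodRed.constO (𝓡 : GoodRed K F k Fk) (a : 𝓡.V) : 𝓡.O :=
  ⟨algebraMap K F (a : K), (𝓡.algebraMap_mem _).2 a.2⟩

theorem GoodRed.red_constO (𝓡 : GoodRed K F k Fk) (a : 𝓡.V) :
    𝓡.red (𝓡.constO a) = algebraMap k Fk (𝓡.res a) :=
  𝓡.red_algebraMap a _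

theorem GoodRed.res_eq_zero_of_mem (𝓡 : GoodRed K F k Fk) (a : IsLocalRing.maximalIdeal 𝓡.V) :
    𝓡.res (a : 𝓡.V) = 0 := by
  rw [𝓡.res_eq_zero, ValuationSubring.mem_nonunits_iff_exists_mem_maximalIdeal]
  exact ⟨(a : 𝓡.V).2, a.2⟩

theorem one_mem_L_of_nonneg [FF1 K F] {D : Divisor K F} (hD : 0 ≤ D) :
    (1 : F) ∈ riemannRochSpace D := by
  apply L_mono hD
  rw [L_zero]
  exact ⟨1, by simp⟩

theorem zsmul_polyDiv_nonneg {𝓡 : GoodRed K F k Fk} {ι : Type*} [Fintype ι]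
    {Qs : ι → Place k Fk} (d : ∀ i, DiscData 𝓡 (Qs i)) (z : ι → IsLocalRing.maximalIdeal 𝓡.V)
    (s : ℕ) : 0 ≤ ((s : ℤ) + 1) • polyDiv d z :=
  smul_nonneg (by positivity) (polyDiv_nonneg d z)

/-- **ZGEN** from GEO and DET. -/
theorem zgen_of (hgeo : GeoStatement K F k Fk) (hdet : DetStatement K F k Fk) :
    ZgenStatement.{u₁, u₂, u₃, u₄, w} K F k Fk := by
  intro 𝓡 Qs hinj hnsp d T _ Λ s hs zs zw hzs hprin
  classical
  haveI := 𝓡.ff1
  obtain ⟨φ, f, P, H, hφL, hfφ, hfP, hdetP⟩ := hdet 𝓡 Qs hinj hnsp d s hs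
  refine local_mem (A := 𝓡.V) (T := T) (ι := Fin (genusFF k Fk)) (𝒪 := fun i => (d i).ring)
    Λ (fun i => (d i).D) (fun _ => s)
    (fun i r => ⟨⟨fun τ => ((zs r τ i : IsLocalRing.maximalIdeal 𝓡.V) : 𝓡.V), hzs r i⟩,
      fun τ => (zs r τ i).2⟩)
    (fun i => (d i).D.t ^ (s + 1)) f (fun _ => X ^ (s + 1)) (fun _ => 0) ?_ P H hfP hdetP ?_
    (fun i τ => zw τ i) ?_
  · intro i
    simp
  · intro i r
    rw [coeff_X_pow, if_neg (by have := r.2; omega)]
    exact zero_mem _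
  · intro τ a hdiv
    -- the section `φ_a = 1 + Σ a_j φ_j`
    set φa : 𝓡.O := 1 + ∑ j, 𝓡.constO (a j : 𝓡.V) * φ j with hφa
    have hφaF : ((φa : 𝓡.O) : F) =
        1 + ∑ j, algebraMap K F (((a j : IsLocalRing.maximalIdeal 𝓡.V) : 𝓡.V) : K) *
          ((φ j : 𝓡.O) : F) := by
      rw [hφa]
      push_cast
      rfl
    have hφaL : ((φa : 𝓡.O) : F) ∈ riemannRochSpace (((s : ℤ) + 1) • polyDiv d 0) := by
      rw [hφaF]
      refine Submodule.add_mem _ (one_mem_L_of_nonneg (zsmul_polyDiv_nonneg d 0 s)) ?_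
      refine Submodule.sum_mem _ fun j _ => ?_
      have := Submodule.smul_mem _ ((((a j : IsLocalRing.maximalIdeal 𝓡.V) : 𝓡.V) : K)) (hφL j)
      rwa [Algebra.smul_def] at this
    have hred : 𝓡.red φa = 1 := by
      rw [hφa, map_add, map_one, map_sum]
      rw [Finset.sum_eq_zero, add_zero]
      intro j _
      rw [map_mul, 𝓡.red_constO, 𝓡.res_eq_zero_of_mem, map_zero, zero_mul]
    have hG : ∀ i, (((d i).D.t ^ (s + 1) +
        ∑ j, ((a j : IsLocalRing.maximalIdeal 𝓡.V) : 𝓡.V) • f j i : (d i).ring) : F) =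
          ((((d i).D.t : (d i).ring) : F)) ^ (s + 1) * ((φa : 𝓡.O) : F) := by
      intro i
      rw [hφaF, mul_add, mul_one, Finset.mul_sum]
      push_cast
      congr 1
      refine Finset.sum_congr rfl fun j _ => ?_
      rw [hfφ, Algebra.smul_def]
      show algebraMap K F (((a j : IsLocalRing.maximalIdeal 𝓡.V) : 𝓡.V) : K) * _ = _
      ring
    have hlist : ∀ i, (List.ofFn fun r : Fin s =>
        (⟨⟨fun τ => ((zs r τ i : IsLocalRing.maximalIdeal 𝓡.V) : 𝓡.V), hzs r i⟩,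
          fun τ => (zs r τ i).2⟩ : radIdeal Λ)).map (ptAt Λ τ) =
        List.ofFn fun r => zs r τ i := by
      intro i
      rw [List.map_ofFn]
      rfl
    simp only [hlist] at hdiv ⊢
    exact hgeo 𝓡 Qs hinj hnsp d s (fun r => zs r τ) (zw τ) (hprin τ) φa hφaL hred
      (fun i => (d i).D.t ^ (s + 1) + ∑ j, ((a j : IsLocalRing.maximalIdeal 𝓡.V) : 𝓡.V) • f j i)
      hG hdiv

/-- ZTRI is ZGEN with two moving points. -/
theorem ztri_of_zgen (h : ZgenStatement.{u₁, u₂, u₃, u₄, w} K F k Fk) : ZtriStatement.{u₁, u₂, u₃, u₄, w} K F k Fk := by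
  intro 𝓡 Qs hinj hnsp d T _ Λ zx zy zw hzx hzy hprin
  refine h 𝓡 Qs hinj hnsp d T Λ 2 (by norm_num) ![zx, zy] zw ?_ ?_
  · intro r j
    fin_cases r
    · exact hzx j
    · exact hzy j
  · intro τ
    have := hprin τ
    rw [Fin.sum_univ_two]
    have h3 : ((2 : ℕ) : ℤ) + 1 = 3 := by norm_num
    rw [h3]
    exact this

/-- ZNEG is ZGEN with one moving point. -/
theorem zneg_of_zgen (h : ZgenStatement.{u₁, u₂, u₃, u₄, w} K F k Fk) : ZnegStatement.{u₁, u₂, u₃, u₄, w} K F k Fk := by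
  intro 𝓡 Qs hinj hnsp d T _ Λ zx zn hzx hprin
  refine h 𝓡 Qs hinj hnsp d T Λ 1 (by norm_num) ![zx] zn ?_ ?_
  · intro r j
    fin_cases r
    exact hzx j
  · intro τ
    have := hprin τ
    rw [Fin.sum_univ_one]
    have h2 : ((1 : ℕ) : ℤ) + 1 = 2 := by norm_num
    rw [h2]
    exact this

end Fermat.Agent.A3.H799
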