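import Fermat.Agent.A3.H799.Asm
import Fermat.Agent.A3.H799.Zgen
import Fermat.Agent.A3.H799.Chart
import Fermat.Agent.A3.H255.Geo
import Fermat.Agent.A3.H255.Nsp
import Fermat.Agent.A3.H555.DiscEquiv
import Fermat.Agent.A3.H555.KerInertia
import Fermat.Agent.A3.H75.Par

/-!
# A3 / LOCAL — `LocalStatement` from the single remaining leaf DET  (helper799)

All other leaves are on main: DISC (`H75.discStatement`), DISC-I (`H555.discEquivStatement`),
NSP (`H255.nspStatement`), COORD (`H255.coordStatement`), GEO (`H255.Geo.geoStatement`),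
KER-I (`H555.kerInertiaStatement`), LIFTI (`H555.liftiStatement_of_disc`).
-/

set_option autoImplicit false

open AlgebraicCurve

namespace Fermat.Agent.A3.H799

universe u₁ u₂ u₃ u₄

variable {K : Type u₁} {F : Type u₂} {k : Type u₃} {Fk : Type u₄}
  [Field K] [Field F] [Algebra K F] [Field k] [Field Fk] [Algebra k Fk]

/-- ZADD from DET. -/
theorem zaddStatement_of_det.{w} (hdet : DetStatement K F k Fk) :
    ZaddStatement.{u₁, u₂, u₃, u₄, w} K F k Fk :=
  zadd_of H255.coordStatement
    (ztri_of_zgen (zgen_of H255.Geo.geoStatement hdet))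
    (zneg_of_zgen (zgen_of H255.Geo.geoStatement hdet))

/-- CHART from DET. -/
theorem chartStatement_of_det.{w} [IsAlgClosed k] (hdet : DetStatement K F k Fk) :
    ChartStatement.{u₁, u₂, u₃, u₄, w} K F k Fk :=
  chart_of H255.nspStatement (H75.discStatement K F k Fk) H555.discEquivStatement
    H255.coordStatement (zaddStatement_of_det hdet)

/-- **`LocalStatement` from DET.** -/
theorem localStatement_of_det [IsAlgClosed K] [IsAlgClosed k] [CharZero K]
    (hdet : DetStatement K F k Fk) : LocalStatement K F k Fk :=
  local_of_chart (chartStatement_of_det hdet) H555.kerInertiaStatement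
    (H555.liftiStatement_of_disc (H75.discStatement K F k Fk) H555.discEquivStatement)

end Fermat.Agent.A3.H799
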