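import Fermat.Agent.A3.H799.LocalSpec
import Fermat.Agent.S19.H195.RedDatum

/-!
# A3 / LOCAL — integral Riemann–Roch for `GoodRed`  (helper799)

Adapter `GoodRed → H195.RedDatum` and the three facts used by ZTRI/ZNEG/COORD:

* `GoodRed.ell_le`      : `ℓ(D) ≤ ℓ(r_* D)` (upper semicontinuity);
* `GoodRed.exists_lift` : for `deg D > 2g - 2` every element of `L(r_* D)` is the reduction of an
                          integral element of `L(D)`;
* `GoodRed.red_mem_L`   : the reduction of an integral element of `L(D)` lies in `L(r_* D)`.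
-/

set_option autoImplicit false

noncomputable section

open AlgebraicCurve Fermat.Agent.Lib.RR

namespace Fermat.Agent.A3.H799

variable {K F k Fk : Type*} [Field K] [Field F] [Algebra K F] [Field k] [Field Fk] [Algebra k Fk]

namespace GoodRed

variable (𝓡 : GoodRed K F k Fk)

theorem mem_V_of_algebraMap_mem {a : K} (h : algebraMap K F a ∈ 𝓡.O) : a ∈ 𝓡.V :=
  (𝓡.algebraMap_mem a).mp h

/-- The adapter to helper195's `RedDatum`. -/
def toRed195 : Fermat.Agent.S19.H195.RedDatum K F k Fk where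
  V := 𝓡.O.toSubring
  red := 𝓡.red
  r := 𝓡.r
  const_total a := by
    rcases 𝓡.O.mem_or_inv_mem (algebraMap K F a) with h | h
    · exact Or.inl h
    · right
      rw [map_inv₀]
      exact h
  red_const a h := ⟨𝓡.res ⟨a, (𝓡.algebraMap_mem a).mp h⟩,
    𝓡.red_algebraMap ⟨a, (𝓡.algebraMap_mem a).mp h⟩ h⟩
  red_const_surj b := by
    obtain ⟨a, ha⟩ := 𝓡.res_surjective b
    refine ⟨(a : K), (𝓡.algebraMap_mem _).mpr a.2, ?_⟩
    rw [← ha]
    exact 𝓡.red_algebraMap a _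
  red_const_unit a h hne := by
    have haV : a ∈ 𝓡.V := (𝓡.algebraMap_mem a).mp h
    have h1 : 𝓡.res ⟨a, haV⟩ ≠ 0 := by
      intro h0
      apply hne
      have := 𝓡.red_algebraMap ⟨a, haV⟩ h
      rw [h0, map_zero] at this
      exact this
    have h2 : a ∉ 𝓡.V.nonunits := fun hn => h1 ((𝓡.res_eq_zero ⟨a, haV⟩).mpr hn)
    have h3 : a⁻¹ ∈ 𝓡.V := by
      by_contra hinv
      apply h2
      rw [ValuationSubring.mem_nonunits_iff_exists_mem_maximalIdeal]
      refine ⟨haV, ?_⟩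
      rw [IsLocalRing.mem_maximalIdeal, mem_nonunits_iff]
      rintro ⟨u, hu⟩
      apply hinv
      have h4 : ((u⁻¹ : 𝓡.Vˣ) : K) = a⁻¹ := by
        have h5 : ((u : 𝓡.V) : K) = a := congrArg Subtype.val hu
        have h6 : ((u : 𝓡.V) : K) * ((u⁻¹ : 𝓡.Vˣ) : K) = 1 := by
          exact_mod_cast congrArg Subtype.val (u.mul_inv)
        rw [h5] at h6
        exact eq_inv_of_mul_eq_one_right h6
      rw [← h4]
      exact Subtype.mem _
    exact (𝓡.algebraMap_mem _).mpr h3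
  ord_red u hu hne D hD Q := 𝓡.div_red ⟨u, hu⟩ hne D hD Q

/-- Every Riemann–Roch space has an orthonormal basis. -/
theorem orthOn (D : Divisor K F) : 𝓡.toRed195.OrthOn (riemannRochSpace D) := by
  obtain ⟨n, b, hli, hmem, hspan, -⟩ := 𝓡.orthonormal D
  exact ⟨n, fun i => ((b i : 𝓡.O) : F), fun i => (b i).2, hmem, hspan.ge, hli⟩

/-- Upper semicontinuity `ℓ(D) ≤ ℓ(r_* D)`. -/
theorem ell_le (D : Divisor K F) :
    @ell K F _ _ _ D ≤ @ell k Fk _ _ _ (Finsupp.mapDomain 𝓡.r D) := by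
  have := 𝓡.ff1
  have := 𝓡.ff1k
  exact 𝓡.toRed195.ell_le_ell_mapDomain D (𝓡.orthOn D)

/-- Reduction of divisors preserves the degree. -/
theorem degree_mapDomain (D : Divisor K F) :
    Divisor.degree (Finsupp.mapDomain 𝓡.r D) = Divisor.degree D := by
  have := 𝓡.ff1
  have := 𝓡.ff1k
  exact 𝓡.toRed195.degree_mapDomain D

/-- The reduction of an integral element of `L(D)` lies in `L(r_* D)`. -/
theorem red_mem_L (D : Divisor K F) {f : F} (hf : f ∈ 𝓡.O) (hfD : f ∈ riemannRochSpace D) :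
    𝓡.red ⟨f, hf⟩ ∈ riemannRochSpace (Finsupp.mapDomain 𝓡.r D) := by
  have := 𝓡.ff1
  exact 𝓡.toRed195.redL_le D (𝓡.toRed195.red_mem_redL hf hfD)

/-- **Integral Riemann–Roch (LIFT).** -/
theorem exists_lift (D : Divisor K F) (hD : 2 * (genusFF k Fk : ℤ) - 2 < Divisor.degree D)
    {ψ : Fk} (hψ : ψ ∈ riemannRochSpace (Finsupp.mapDomain 𝓡.r D)) :
    ∃ (f : F) (hf : f ∈ 𝓡.O), f ∈ riemannRochSpace D ∧ 𝓡.red ⟨f, hf⟩ = ψ := by
  have := 𝓡.ff1
  have := 𝓡.ff1k
  have h := 𝓡.toRed195.redL_eq (le_of_eq 𝓡.genus_eq) D hD (𝓡.orthOn D)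
  have hψ' : ψ ∈ 𝓡.toRed195.redL D := by
    rw [h]; exact hψ
  exact hψ'

end GoodRed

end Fermat.Agent.A3.H799
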