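import Fermat.Agent.A3.H799.FamRing
import Fermat.Agent.A3.H799.Disc

/-!
# A3 / LOCAL — the root lemma  (helper799)

`A` local ring, `T` finite, `Λ ≤ (T → A)` an `A`-algebra of functions, `𝒪` a disc algebra.
Let `W_τ = Σ_j v_j(τ) f_j ∈ 𝒪` be a family of disc functions with fixed `f_j ∈ 𝒪` and coefficients
`v_j ∈ Λ`.  If, for every `τ`,

  `W_τ = ∏_{y ∈ ys} (t - y(τ)) * (t - c(τ)) * u_τ`,   `u_τ(c(τ))` a unit,

with known roots `ys ⊆ Λ` (values in `𝔪`), then the remaining root `c : T → 𝔪` lies in `Λ`.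
(`root_mem`.)  This is "Weierstrass preparation + Hensel" for algebraic families, with no
completeness and no power series.
-/

set_option autoImplicit false

namespace Fermat.Agent.A3.H799

open Polynomial

section EvAt

variable {A : Type*} [CommRing A] {T : Type*}

/-- Evaluation of a function in `Λ` at a parameter value `τ`. -/
def evAt (Λ : Subalgebra A (T → A)) (τ : T) : Λ →ₐ[A] A :=
  (Pi.evalAlgHom A (fun _ : T => A) τ).comp Λ.val

@[simp] theorem evAt_apply (Λ : Subalgebra A (T → A)) (τ : T) (x : Λ) :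
    evAt Λ τ x = (x : T → A) τ := rfl

theorem ext_evAt {Λ : Subalgebra A (T → A)} {x y : Λ} (h : ∀ τ, evAt Λ τ x = evAt Λ τ y) :
    x = y := Subtype.ext (funext h)

/-- Polynomials over `Λ` are determined by their specialisations. -/
theorem poly_ext_evAt {Λ : Subalgebra A (T → A)} {P Q : Λ[X]}
    (h : ∀ τ, P.map (evAt Λ τ : Λ →+* A) = Q.map (evAt Λ τ : Λ →+* A)) : P = Q := by
  ext n : 1
  refine ext_evAt fun τ => ?_
  have := congrArg (fun p => p.coeff n) (h τ)
  simpa using this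

/-- Pointwise value of `aeval y P`. -/
theorem aeval_apply_eq (Λ : Subalgebra A (T → A)) (P : Λ[X]) (y : T → A) (τ : T) :
    (aeval y P) τ = (P.map (evAt Λ τ : Λ →+* A)).eval (y τ) := by
  have h1 : (aeval y P) τ = (Pi.evalRingHom (fun _ : T => A) τ) (eval₂ (algebraMap Λ (T → A)) y P) :=
    rfl
  rw [h1, Polynomial.hom_eval₂, eval_map]
  rfl

end EvAt

section Root

variable {A : Type*} [CommRing A] [IsLocalRing A] {T : Type*} [Finite T]
variable {𝒪 : Type*} [CommRing 𝒪] [Algebra A 𝒪]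

/-- The value at `τ` of a `Λ`-point of the disc. -/
def ptAt (Λ : Subalgebra A (T → A)) (τ : T) (y : radIdeal Λ) : IsLocalRing.maximalIdeal A :=
  ⟨((y : Λ) : T → A) τ, y.2 τ⟩

omit [Finite T] in
@[simp] theorem coe_ptAt (Λ : Subalgebra A (T → A)) (τ : T) (y : radIdeal Λ) :
    ((ptAt Λ τ y : IsLocalRing.maximalIdeal A) : A) = ((y : Λ) : T → A) τ := rfl

/-- The monic polynomial `∏ (X - y)` over `Λ` attached to a list of `Λ`-points. -/
noncomputable def nodalΛ (Λ : Subalgebra A (T → A)) (ys : List (radIdeal Λ)) : Λ[X] :=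
  (ys.map fun y => X - C (y : Λ)).prod

omit [Finite T] in
theorem nodalΛ_monic (Λ : Subalgebra A (T → A)) (ys : List (radIdeal Λ)) :
    (nodalΛ Λ ys).Monic := by
  induction ys with
  | nil => simp [nodalΛ]
  | cons a l ih =>
    have : nodalΛ Λ (a :: l) = (X - C (a : Λ)) * nodalΛ Λ l := by simp [nodalΛ]
    rw [this]; exact (monic_X_sub_C _).mul ih

omit [Finite T] in
theorem map_nodalΛ (Λ : Subalgebra A (T → A)) (ys : List (radIdeal Λ)) (τ : T) :
    (nodalΛ Λ ys).map (evAt Λ τ : Λ →+* A) = DiscAlg.nodal (ys.map (ptAt Λ τ)) := by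
  induction ys with
  | nil => simp [nodalΛ]
  | cons a l ih =>
    have h1 : nodalΛ Λ (a :: l) = (X - C (a : Λ)) * nodalΛ Λ l := by simp [nodalΛ]
    rw [h1, Polynomial.map_mul, ih, List.map_cons, DiscAlg.nodal_cons]
    simp

/-- Auxiliary: the list of all nodes `∏_τ (ys(τ) ++ [c τ, c τ])`. -/
private noncomputable def allNodes (Λ : Subalgebra A (T → A)) (ys : List (radIdeal Λ))
    (c : T → IsLocalRing.maximalIdeal A) (ts : List T) : List (IsLocalRing.maximalIdeal A) :=
  ts.flatMap fun τ => ys.map (ptAt Λ τ) ++ [c τ, c τ]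

omit [Finite T] in
private theorem nodal_allNodes_dvd (Λ : Subalgebra A (T → A)) (ys : List (radIdeal Λ))
    (c : T → IsLocalRing.maximalIdeal A) (ts : List T) (τ : T) (hτ : τ ∈ ts) :
    ∃ R : A[X], DiscAlg.nodal (allNodes Λ ys c ts) =
      DiscAlg.nodal (ys.map (ptAt Λ τ) ++ [c τ]) * (X - C ((c τ : IsLocalRing.maximalIdeal A) : A))
        * R := by
  induction ts with
  | nil => simp at hτ
  | cons σ ts ih =>
    have hcons : allNodes Λ ys c (σ :: ts) =
        (ys.map (ptAt Λ σ) ++ [c σ, c σ]) ++ allNodes Λ ys c ts := by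
      simp [allNodes]
    rw [hcons, DiscAlg.nodal_append]
    rcases List.mem_cons.mp hτ with h | h
    · subst h
      refine ⟨DiscAlg.nodal (allNodes Λ ys c ts), ?_⟩
      have : ys.map (ptAt Λ τ) ++ [c τ, c τ] = (ys.map (ptAt Λ τ) ++ [c τ]) ++ [c τ] := by simp
      rw [this, DiscAlg.nodal_append_singleton]
    · obtain ⟨R, hR⟩ := ih h
      refine ⟨DiscAlg.nodal (ys.map (ptAt Λ σ) ++ [c σ, c σ]) * R, ?_⟩
      rw [hR]; ring

/-- **Root lemma.**  See the module docstring. -/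
theorem root_mem (Λ : Subalgebra A (T → A)) (D : DiscAlg A 𝒪) {κ : Type*} [Fintype κ]
    (f : κ → 𝒪) (v : κ → Λ) (ys : List (radIdeal Λ)) (c : T → IsLocalRing.maximalIdeal A)
    (hW : ∀ τ, ∃ u : 𝒪, IsUnit (D.ev (c τ) u) ∧
      ∑ j, ((v j : Λ) : T → A) τ • f j =
        aeval D.t (DiscAlg.nodal (ys.map (ptAt Λ τ))) *
          (D.t - algebraMap A 𝒪 ((c τ : IsLocalRing.maximalIdeal A) : A)) * u) :
    (fun τ => ((c τ : IsLocalRing.maximalIdeal A) : A)) ∈ Λ := by
  classical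
  have : Fintype T := Fintype.ofFinite T
  set ts : List T := (Finset.univ : Finset T).toList with hts
  have hmem : ∀ τ, τ ∈ ts := fun τ => by simp [hts]
  set S := allNodes Λ ys c ts with hS
  -- interpolation of the `f j`
  choose p h hp using fun j => D.exists_interp S (f j)
  -- the polynomial with coefficients in `Λ`
  set Φ : Λ[X] := ∑ j, C (v j) * (p j).map (algebraMap A Λ) with hΦ
  set G : Λ[X] := nodalΛ Λ ys with hG
  have hGm : G.Monic := nodalΛ_monic Λ ys
  set Φ₂ : Λ[X] := Φ /ₘ G with hΦ₂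
  -- pointwise factorisation of `Φ`
  have hΦτ : ∀ τ, Φ.map (evAt Λ τ : Λ →+* A) = ∑ j, C (((v j : Λ) : T → A) τ) * p j := by
    intro τ
    rw [hΦ, Polynomial.map_sum]
    refine Finset.sum_congr rfl fun j _ => ?_
    rw [Polynomial.map_mul, Polynomial.map_C, Polynomial.map_map]
    have : ((evAt Λ τ : Λ →+* A).comp (algebraMap A Λ)) = RingHom.id A := by
      ext a; simp
    rw [this, Polynomial.map_id]
    rfl
  have hfac : ∀ τ, ∃ q : A[X], IsUnit (q.eval ((c τ : IsLocalRing.maximalIdeal A) : A)) ∧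
      Φ.map (evAt Λ τ : Λ →+* A) =
        DiscAlg.nodal (ys.map (ptAt Λ τ)) * ((X - C ((c τ : IsLocalRing.maximalIdeal A) : A)) * q) := by
    intro τ
    obtain ⟨u, hu, hWτ⟩ := hW τ
    obtain ⟨R, hR⟩ := nodal_allNodes_dvd Λ ys c ts τ (hmem τ)
    -- aeval of Φ_τ
    have h1 : aeval D.t (Φ.map (evAt Λ τ : Λ →+* A)) =
        ∑ j, ((v j : Λ) : T → A) τ • f j -
          aeval D.t (DiscAlg.nodal S) * ∑ j, ((v j : Λ) : T → A) τ • h j := by
      rw [hΦτ τ, map_sum, Finset.mul_sum, ← Finset.sum_sub_distrib]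
      refine Finset.sum_congr rfl fun j _ => ?_
      rw [map_mul, aeval_C, hp j, Algebra.smul_def, Algebra.smul_def]
      ring
    set u' : 𝒪 := u - (D.t - algebraMap A 𝒪 ((c τ : IsLocalRing.maximalIdeal A) : A)) *
        (aeval D.t R * ∑ j, ((v j : Λ) : T → A) τ • h j) with hu'
    have hR' : aeval D.t (DiscAlg.nodal S) =
        aeval D.t (DiscAlg.nodal (ys.map (ptAt Λ τ))) *
          (D.t - algebraMap A 𝒪 ((c τ : IsLocalRing.maximalIdeal A) : A)) *
          (D.t - algebraMap A 𝒪 ((c τ : IsLocalRing.maximalIdeal A) : A)) * aeval D.t R := by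
      rw [hS, hR, DiscAlg.nodal_append_singleton]
      simp only [map_mul, map_sub, aeval_X, aeval_C]
    have h2 : aeval D.t (Φ.map (evAt Λ τ : Λ →+* A)) =
        aeval D.t (DiscAlg.nodal (ys.map (ptAt Λ τ) ++ [c τ])) * u' := by
      rw [h1, hWτ, hR', DiscAlg.nodal_append_singleton, hu']
      simp only [map_mul, map_sub, aeval_X, aeval_C]
      ring
    obtain ⟨q, hq⟩ := D.nodal_dvd_of_aeval _ _ _ h2
    refine ⟨q, ?_, ?_⟩
    · -- q(t) = u'
      have h3 : aeval D.t (DiscAlg.nodal (ys.map (ptAt Λ τ) ++ [c τ])) * (aeval D.t q - u') = 0 := by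
        rw [mul_sub, ← h2, hq, map_mul]; ring
      have h4 : aeval D.t q = u' := sub_eq_zero.mp (D.nodal_cancel _ _ h3)
      have h5 : q.eval ((c τ : IsLocalRing.maximalIdeal A) : A) = D.ev (c τ) u := by
        rw [← D.ev_aeval, h4, hu', map_sub, map_mul, map_sub, D.ev_t]
        simp
      rw [h5]; exact hu
    · rw [hq, DiscAlg.nodal_append_singleton]
      ring
  -- specialisation of Φ₂
  have hΦ₂τ : ∀ τ, ∃ q : A[X], IsUnit (q.eval ((c τ : IsLocalRing.maximalIdeal A) : A)) ∧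
      Φ₂.map (evAt Λ τ : Λ →+* A) = (X - C ((c τ : IsLocalRing.maximalIdeal A) : A)) * q := by
    intro τ
    obtain ⟨q, hq, hfac'⟩ := hfac τ
    refine ⟨q, hq, ?_⟩
    rw [hΦ₂, Polynomial.map_divByMonic _ hGm, hfac', hG, map_nodalΛ]
    exact Polynomial.mul_divByMonic_cancel_left _ (DiscAlg.nodal_monic _)
  -- apply Hensel
  refine hensel_mem Λ Φ₂ _ (fun τ => (c τ).2) ?_ ?_
  · funext τ
    rw [aeval_apply_eq]
    obtain ⟨q, -, hq⟩ := hΦ₂τ τ
    rw [hq]
    simp
  · intro τ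
    rw [aeval_apply_eq, ← Polynomial.derivative_map]
    obtain ⟨q, hqu, hq⟩ := hΦ₂τ τ
    rw [hq]
    simpa [derivative_mul] using hqu

end Root

end Fermat.Agent.A3.H799
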